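import Fermat.Agent.LT.T3.H57.PoissonAbs

/-!
# Row LT, tower T3 (volunteer helper57): completeness of a separating group of characters

OFF-MAIN.  Mathlib only.

`complete_abstract57`: `G` abelian topological group (Borel), `Γ` countable subgroup with compact
quotient, `μ` invariant and positive on open sets, `D` a fundamental domain of FINITE measure,
`χ i` continuous unitary characters trivial on `Γ`, closed under `1`, products and conjugates,
separating the points of `G ⧸ Γ`.  A continuous `Γ`-periodic `F` with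
`∫_D F · χ i = 0` for all `i` vanishes identically.  (Stone--Weierstrass; no normalisation of the
measure, no countability or injectivity of the family.)
-/

set_option autoImplicit false
set_option linter.unusedSectionVars false

namespace Fermat.Agent.LT.T3.H57

open MeasureTheory Filter Set Topology ComplexConjugate
open scoped Pointwise

section

variable {G : Type*} [AddCommGroup G] [TopologicalSpace G] [IsTopologicalAddGroup G]
  [MeasurableSpace G] [BorelSpace G]
  (Γ : AddSubgroup G) [Countable Γ] [CompactSpace (G ⧸ Γ)]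
  (μ : Measure G) [μ.IsAddLeftInvariant] [μ.IsOpenPosMeasure]
  (D : Set G)

/-- Integration over a fundamental domain of finite measure as a linear functional on
`C(G ⧸ Γ, ℂ)`. -/
noncomputable def intDf57 (hfin : μ D ≠ ⊤) : C(G ⧸ Γ, ℂ) →ₗ[ℂ] ℂ where
  toFun f := ∫ x in D, f (x : G ⧸ Γ) ∂μ
  map_add' f g := by
    have : IsFiniteMeasure (μ.restrict D) :=
      ⟨by rw [Measure.restrict_apply_univ]; exact lt_top_iff_ne_top.mpr hfin⟩
    have hi : ∀ f : C(G ⧸ Γ, ℂ), Integrable (fun x : G => f (x : G ⧸ Γ)) (μ.restrict D) :=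
      fun f => Integrable.of_bound
        (f.continuous.comp continuous_quot_mk).aestronglyMeasurable ‖f‖
        (Eventually.of_forall fun x => f.norm_coe_le_norm _)
    simp only [ContinuousMap.add_apply]
    exact integral_add (hi f) (hi g)
  map_smul' c f := by
    simp only [ContinuousMap.smul_apply, smul_eq_mul, RingHom.id_apply]
    exact integral_const_mul c _

theorem intDf57_apply (hfin : μ D ≠ ⊤) (f : C(G ⧸ Γ, ℂ)) :
    intDf57 Γ μ D hfin f = ∫ x in D, f (x : G ⧸ Γ) ∂μ := rfl

theorem norm_intDf57_le (hfin : μ D ≠ ⊤) (f : C(G ⧸ Γ, ℂ)) :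
    ‖intDf57 Γ μ D hfin f‖ ≤ ‖f‖ * μ.real D := by
  rw [intDf57_apply]
  exact norm_setIntegral_le_of_norm_le_const (μ := μ) (s := D) (C := ‖f‖)
    (f := fun x : G => f (x : G ⧸ Γ)) (lt_top_iff_ne_top.mpr hfin)
    (fun x _ => f.norm_coe_le_norm _)

/-- A continuous function on `G ⧸ Γ` with `∫_D |f|² = 0` vanishes identically. -/
theorem eq_zero_of_intDf57_mul_star (hD : IsAddFundamentalDomain Γ D μ) (hfin : μ D ≠ ⊤)
    (f : C(G ⧸ Γ, ℂ)) (h0 : intDf57 Γ μ D hfin (f * star f) = 0) (x : G) :
    f (x : G ⧸ Γ) = 0 := by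
  have : IsFiniteMeasure (μ.restrict D) :=
    ⟨by rw [Measure.restrict_apply_univ]; exact lt_top_iff_ne_top.mpr hfin⟩
  let F : G → ℂ := fun x => f (x : G ⧸ Γ)
  have hFc : Continuous F := f.continuous.comp continuous_quot_mk
  have h1 : ∫ x in D, ((Complex.normSq (F x) : ℝ) : ℂ) ∂μ = 0 := by
    rw [intDf57_apply] at h0
    rw [← h0]
    congr 1
    ext x
    simp only [ContinuousMap.mul_apply, ContinuousMap.star_apply, F]
    rw [Complex.star_def, Complex.mul_conj]
  rw [integral_complex_ofReal] at h1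
  have h2 : ∫ x in D, Complex.normSq (F x) ∂μ = 0 := by exact_mod_cast h1
  have hnn : 0 ≤ fun x => Complex.normSq (F x) := fun x => Complex.normSq_nonneg _
  have hcn : Continuous fun x => Complex.normSq (F x) := Complex.continuous_normSq.comp hFc
  have hint : Integrable (fun x => Complex.normSq (F x)) (μ.restrict D) := by
    refine Integrable.of_bound hcn.aestronglyMeasurable (‖f‖ ^ 2)
      (Eventually.of_forall fun x => ?_)
    rw [Real.norm_of_nonneg (Complex.normSq_nonneg _), Complex.normSq_eq_norm_sq]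
    exact pow_le_pow_left₀ (norm_nonneg _) (f.norm_coe_le_norm _) 2
  have h3 := (integral_eq_zero_iff_of_nonneg hnn hint).mp h2
  let U : Set G := {x | F x ≠ 0}
  have hU : IsOpen U := isOpen_ne_fun hFc continuous_const
  have h4 : μ (U ∩ D) = 0 := by
    have h5 : (μ.restrict D) {x | ¬ (Complex.normSq (F x) = (0 : G → ℝ) x)} = 0 := ae_iff.mp h3
    have h6 : {x | ¬ (Complex.normSq (F x) = (0 : G → ℝ) x)} = U := by
      ext x
      simp [U]
    rw [h6, Measure.restrict_apply hU.measurableSet] at h5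
    exact h5
  have hinv : ∀ γ : Γ, γ +ᵥ U = U := by
    intro γ
    ext x
    rw [Set.mem_vadd_set_iff_neg_vadd_mem]
    have h7 : F (-γ +ᵥ x) = F x := by
      show f ((-γ +ᵥ x : G) : G ⧸ Γ) = f (x : G ⧸ Γ)
      congr 1
      have : (-γ +ᵥ x : G) = x + ((-γ : Γ) : G) := by
        show ((-γ : Γ) : G) + x = x + ((-γ : Γ) : G)
        exact add_comm _ _
      rw [this]
      exact QuotientAddGroup.mk_add_of_mem x (-γ).2
    show F (-γ +ᵥ x) ≠ 0 ↔ F x ≠ 0
    rw [h7]
  have h8 : μ U = 0 := hD.measure_zero_of_invariant U hinv h4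
  have h9 : U = ∅ := (hU.measure_eq_zero_iff μ).mp h8
  by_contra hne
  have : x ∈ U := hne
  rw [h9] at this
  exact this

/-- **Completeness** of a separating group of characters of `G ⧸ Γ`. -/
theorem complete_abstract57 (hD : IsAddFundamentalDomain Γ D μ) (hfin : μ D ≠ ⊤)
    {ι : Type*} (χ : ι → G → ℂ)
    (hχc : ∀ i, Continuous (χ i))
    (hχadd : ∀ i x y, χ i (x + y) = χ i x * χ i y)
    (hχn : ∀ i x, ‖χ i x‖ = 1)
    (hχΓ : ∀ i, ∀ γ ∈ Γ, χ i γ = 1)
    (hχone : ∃ i, ∀ x, χ i x = 1)
    (hχmul : ∀ i j, ∃ k, ∀ x, χ k x = χ i x * χ j x)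
    (hχinv : ∀ i, ∃ k, ∀ x, χ k x = conj (χ i x))
    (hsep : ∀ x : G, (∀ i, χ i x = 1) → x ∈ Γ)
    (F : G → ℂ) (hFc : Continuous F) (hFper : ∀ γ ∈ Γ, ∀ x, F (γ + x) = F x)
    (h0 : ∀ i, ∫ x in D, F x * χ i x ∂μ = 0) (x : G) : F x = 0 := by
  classical
  have hχper : ∀ i, ∀ γ ∈ Γ, ∀ x, χ i (γ + x) = χ i x := fun i γ hγ x => by
    rw [hχadd, hχΓ i γ hγ, one_mul]
  let X : ι → C(G ⧸ Γ, ℂ) := fun i => desc57 Γ (χ i) (hχc i) (hχper i)
  let H : C(G ⧸ Γ, ℂ) := desc57 Γ F hFc hFper
  have hHX : ∀ i, intDf57 Γ μ D hfin (H * X i) = 0 := fun i => h0 i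
  have hXstar : ∀ i, ∃ k, star (X i) = X k := by
    intro i
    obtain ⟨k, hk⟩ := hχinv i
    refine ⟨k, ?_⟩
    ext q
    induction q using QuotientAddGroup.induction_on with
    | H x =>
      show star (χ i x) = χ k x
      rw [hk]
      rfl
  let Ssub : Submodule ℂ C(G ⧸ Γ, ℂ) := Submodule.span ℂ (Set.range X)
  have hS1 : (1 : C(G ⧸ Γ, ℂ)) ∈ Ssub := by
    obtain ⟨i, hi⟩ := hχone
    have : X i = 1 := by
      ext q
      induction q using QuotientAddGroup.induction_on with
      | H x => exact hi x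
    rw [← this]
    exact Submodule.subset_span ⟨i, rfl⟩
  have hSmul : ∀ a b, a ∈ Ssub → b ∈ Ssub → a * b ∈ Ssub := by
    intro a b ha hb
    have h1 : a * b ∈ Ssub * Ssub := Submodule.mul_mem_mul ha hb
    have h2 : Ssub * Ssub ≤ Ssub := by
      show Submodule.span ℂ (Set.range X) * Submodule.span ℂ (Set.range X) ≤ _
      rw [Submodule.span_mul_span]
      refine Submodule.span_le.mpr ?_
      rintro _ ⟨_, ⟨i, rfl⟩, _, ⟨j, rfl⟩, rfl⟩
      obtain ⟨k, hk⟩ := hχmul i j
      have : X i * X j = X k := by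
        ext q
        induction q using QuotientAddGroup.induction_on with
        | H x => exact (hk x).symm
      show X i * X j ∈ Ssub
      rw [this]
      exact Submodule.subset_span ⟨k, rfl⟩
    exact h2 h1
  have hSstar : ∀ a, a ∈ Ssub → star a ∈ Ssub := by
    intro a ha
    induction ha using Submodule.span_induction with
    | mem x hx =>
      obtain ⟨i, rfl⟩ := hx
      obtain ⟨k, hk⟩ := hXstar i
      rw [hk]
      exact Submodule.subset_span ⟨k, rfl⟩
    | zero => rw [star_zero]; exact Submodule.zero_mem _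
    | add x y _ _ hx hy => rw [star_add]; exact Submodule.add_mem _ hx hy
    | smul r x _ hx => rw [star_smul]; exact Submodule.smul_mem _ _ hx
  let S : StarSubalgebra ℂ C(G ⧸ Γ, ℂ) :=
    { toSubalgebra := Ssub.toSubalgebra hS1 hSmul
      star_mem' := fun {a} ha => hSstar a ha }
  have hSmem : ∀ a, a ∈ S → a ∈ Ssub := fun a ha => ha
  have hSsep : S.SeparatesPoints := by
    intro q q' hqq'
    induction q using QuotientAddGroup.induction_on with
    | H x =>
    induction q' using QuotientAddGroup.induction_on with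
    | H y =>
    have hxy : -x + y ∉ Γ := fun hmem => hqq' (QuotientAddGroup.eq.mpr hmem)
    have hex : ∃ i, χ i (-x + y) ≠ 1 := by
      by_contra hcon
      push Not at hcon
      exact hxy (hsep _ hcon)
    obtain ⟨i, hi⟩ := hex
    refine ⟨X i, ⟨X i, Submodule.subset_span ⟨i, rfl⟩, rfl⟩, ?_⟩
    show χ i x ≠ χ i y
    intro heq
    apply hi
    have h1 : χ i y = χ i x * χ i (-x + y) := by
      rw [← hχadd]
      congr 1
      abel
    have hne : χ i x ≠ 0 := by
      intro h0
      have := hχn i x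
      rw [h0, norm_zero] at this
      exact zero_ne_one this
    rw [← heq] at h1
    exact (mul_eq_left₀ hne).mp h1.symm
  have hdense : S.topologicalClosure = ⊤ :=
    ContinuousMap.starSubalgebra_topologicalClosure_eq_top_of_separatesPoints S hSsep
  have hHS : ∀ p, p ∈ Ssub → intDf57 Γ μ D hfin (H * p) = 0 := by
    intro p hp
    induction hp using Submodule.span_induction with
    | mem x hx =>
      obtain ⟨i, rfl⟩ := hx
      exact hHX i
    | zero => rw [mul_zero, map_zero]
    | add x y _ _ hx hy => rw [mul_add, map_add, hx, hy, add_zero]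
    | smul r x _ hx => rw [mul_smul_comm, map_smul, hx, smul_zero]
  have hHH : intDf57 Γ μ D hfin (H * star H) = 0 := by
    have hcl : star H ∈ closure (S : Set C(G ⧸ Γ, ℂ)) := by
      rw [← StarSubalgebra.topologicalClosure_coe, hdense]
      trivial
    rw [← norm_eq_zero]
    refine le_antisymm (le_of_forall_pos_le_add fun ε hε => ?_) (norm_nonneg _)
    rw [zero_add]
    have hM : 0 ≤ μ.real D := ENNReal.toReal_nonneg
    obtain ⟨p, hpS, hp⟩ := Metric.mem_closure_iff.mp hcl (ε / (‖H‖ * μ.real D + 1))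
      (by positivity)
    have h1 : H * star H = H * (star H - p) + H * p := by ring
    rw [h1, map_add, hHS p (hSmem p hpS), add_zero]
    have hpos : 0 < ‖H‖ * μ.real D + 1 := by positivity
    calc ‖intDf57 Γ μ D hfin (H * (star H - p))‖
        ≤ ‖H * (star H - p)‖ * μ.real D := norm_intDf57_le Γ μ D hfin _
      _ ≤ ‖H‖ * ‖star H - p‖ * μ.real D :=
          mul_le_mul_of_nonneg_right (norm_mul_le _ _) hM
      _ ≤ ‖H‖ * (ε / (‖H‖ * μ.real D + 1)) * μ.real D := by
          refine mul_le_mul_of_nonneg_right ?_ hM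
          refine mul_le_mul_of_nonneg_left ?_ (norm_nonneg _)
          rw [← dist_eq_norm]
          exact hp.le
      _ = ε * (‖H‖ * μ.real D / (‖H‖ * μ.real D + 1)) := by ring
      _ ≤ ε * 1 := by
          refine mul_le_mul_of_nonneg_left ?_ hε.le
          rw [div_le_one hpos]
          linarith
      _ = ε := mul_one ε
  exact eq_zero_of_intDf57_mul_star Γ μ D hD hfin H hHH x

end

end Fermat.Agent.LT.T3.H57
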