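import Mathlib

/-!
# Row LT, tower T3 (volunteer helper57): periodisation of compactly supported functions

OFF-MAIN.  Mathlib only, no definitions.

For a subgroup `Γ` of a locally compact abelian topological group `G` which is discrete (meets a
neighbourhood of `0` only in `0`) and a continuous compactly supported `φ : G → ℂ`:

* `finite_inter_compact_of_discrete57`: `Γ` meets every compact set in a finite set;
* `locallyFinite_periodisation57`: the supports of the translates `x ↦ φ (x + γ)` are locally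
  finite;
* `summable_periodisation57`: `γ ↦ φ (x + γ)` is summable for every `x`;
* `continuous_periodisation57`: `x ↦ ∑' γ : Γ, φ (x + γ)` is continuous.

These discharge the hypothesis `hΦc` of `poisson_abstract57` / `poisson_ring57` for test
functions.
-/

set_option autoImplicit false
set_option linter.unusedSectionVars false

namespace Fermat.Agent.LT.T3.H57

open Set Topology Filter Function

section

variable {G : Type*} [AddCommGroup G] [TopologicalSpace G] [IsTopologicalAddGroup G]
  (Γ : AddSubgroup G)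

/-- A subgroup which meets a neighbourhood of `0` only in `0` meets every compact set in a
finite set. -/
theorem finite_inter_compact_of_discrete57
    (hΓ : ∃ U : Set G, IsOpen U ∧ (0 : G) ∈ U ∧ ∀ γ ∈ Γ, γ ∈ U → γ = 0)
    (C : Set G) (hC : IsCompact C) : ((Γ : Set G) ∩ C).Finite := by
  obtain ⟨U, hU, h0U, hUΓ⟩ := hΓ
  have hsubc : Continuous fun p : G × G => p.1 - p.2 := continuous_fst.sub continuous_snd
  have hpre : IsOpen ((fun p : G × G => p.1 - p.2) ⁻¹' U) := hU.preimage hsubc
  have h00 : ((0 : G), (0 : G)) ∈ (fun p : G × G => p.1 - p.2) ⁻¹' U := by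
    simpa using h0U
  obtain ⟨V₁, V₂, hV₁, hV₂, h0V₁, h0V₂, hVU⟩ := isOpen_prod_iff.mp hpre 0 0 h00
  let V : Set G := V₁ ∩ V₂
  have hV : IsOpen V := hV₁.inter hV₂
  have h0V : (0 : G) ∈ V := ⟨h0V₁, h0V₂⟩
  have hVV : ∀ a ∈ V, ∀ b ∈ V, a - b ∈ U := fun a ha b hb =>
    hVU (mk_mem_prod ha.1 hb.2)
  have hcov : C ⊆ ⋃ c : G, (fun a => a - c) ⁻¹' V := fun c _ =>
    mem_iUnion.mpr ⟨c, by simpa using h0V⟩
  obtain ⟨t, ht⟩ := hC.elim_finite_subcover (fun c : G => (fun a => a - c) ⁻¹' V)
    (fun c => hV.preimage (continuous_id.sub continuous_const)) hcov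
  have hsubs : (Γ : Set G) ∩ C ⊆ ⋃ c ∈ t, ((Γ : Set G) ∩ (fun a => a - c) ⁻¹' V) := by
    rintro a ⟨haΓ, haC⟩
    obtain ⟨c, hct, hac⟩ := mem_iUnion₂.mp (ht haC)
    exact mem_iUnion₂.mpr ⟨c, hct, haΓ, hac⟩
  refine (Set.Finite.biUnion t.finite_toSet fun c _ => ?_).subset hsubs
  refine Set.Subsingleton.finite ?_
  rintro a ⟨haΓ, haV⟩ b ⟨hbΓ, hbV⟩
  have h1 : a - b ∈ U := by
    have := hVV (a - c) haV (b - c) hbV
    simpa using this
  exact sub_eq_zero.mp (hUΓ (a - b) (Γ.sub_mem haΓ hbΓ) h1)

variable [LocallyCompactSpace G]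

/-- The supports of the translates of a compactly supported function by a discrete subgroup are
locally finite. -/
theorem locallyFinite_periodisation57
    (hΓ : ∃ U : Set G, IsOpen U ∧ (0 : G) ∈ U ∧ ∀ γ ∈ Γ, γ ∈ U → γ = 0)
    (φ : G → ℂ) (hφs : HasCompactSupport φ) :
    LocallyFinite fun γ : Γ => support fun x => φ (x + γ) := by
  intro x₀
  obtain ⟨V, hVc, hVn⟩ := exists_compact_mem_nhds x₀
  refine ⟨V, hVn, ?_⟩
  let T : Set G := (fun p : G × G => p.1 - p.2) '' (tsupport φ ×ˢ V)
  have hT : IsCompact T :=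
    (hφs.isCompact.prod hVc).image (continuous_fst.sub continuous_snd)
  have hfin : ((Γ : Set G) ∩ T).Finite := finite_inter_compact_of_discrete57 Γ hΓ T hT
  have hsub : {γ : Γ | ((support fun x => φ (x + γ)) ∩ V).Nonempty} ⊆
      (fun γ : Γ => (γ : G)) ⁻¹' ((Γ : Set G) ∩ T) := by
    rintro γ ⟨x, hx, hxV⟩
    refine ⟨γ.2, (x + γ, x), ⟨subset_tsupport _ hx, hxV⟩, ?_⟩
    simp
  exact (hfin.preimage (Subtype.val_injective.injOn)).subset hsub

theorem summable_periodisation57
    (hΓ : ∃ U : Set G, IsOpen U ∧ (0 : G) ∈ U ∧ ∀ γ ∈ Γ, γ ∈ U → γ = 0)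
    (φ : G → ℂ) (hφs : HasCompactSupport φ) (x : G) :
    Summable fun γ : Γ => φ (x + γ) := by
  have h := (locallyFinite_periodisation57 Γ hΓ φ hφs).point_finite x
  refine summable_of_hasFiniteSupport (h.subset ?_)
  intro γ hγ
  exact hγ

/-- The periodisation of a continuous compactly supported function along a discrete subgroup is
continuous. -/
theorem continuous_periodisation57
    (hΓ : ∃ U : Set G, IsOpen U ∧ (0 : G) ∈ U ∧ ∀ γ ∈ Γ, γ ∈ U → γ = 0)
    (φ : G → ℂ) (hφc : Continuous φ) (hφs : HasCompactSupport φ) :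
    Continuous fun x => ∑' γ : Γ, φ (x + γ) := by
  have hlf := locallyFinite_periodisation57 Γ hΓ φ hφs
  have h1 : Continuous fun x => ∑ᶠ γ : Γ, φ (x + γ) :=
    continuous_finsum (fun γ => hφc.comp (continuous_id.add continuous_const)) hlf
  have h2 : (fun x => ∑' γ : Γ, φ (x + γ)) = fun x => ∑ᶠ γ : Γ, φ (x + γ) := by
    ext x
    refine tsum_eq_finsum ((hlf.point_finite x).subset ?_)
    intro γ hγ
    exact hγ
  rw [h2]
  exact h1

end

/-- A number field is countable. -/
theorem countable_of_numberField57 (K : Type*) [Field K] [NumberField K] : Countable K := by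
  let b := Module.finBasis ℚ K
  exact b.equivFun.injective.countable

end Fermat.Agent.LT.T3.H57
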