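import Mathlib

/-!
# Row LT, tower T3 (volunteer helper57): the annihilator lemma, abstract form

OFF-MAIN.  Mathlib only, no definitions.

`annihilator_eq_range57`: let `A` be a commutative topological ring, `K` an infinite field with a
ring homomorphism `ι : K →+* A` which is COCOMPACT (`A = C + ι K` for a compact `C`), and
`ψ : A → ℂ` a continuous unitary additive character which is trivial on `ι K` and NON-DEGENERATE
(`ψ (x * A) = 1 → x = 0`).  Then the annihilator of `ι K` for the pairing `(x, y) ↦ ψ (x * y)`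
is `ι K` itself:  `(∀ ξ, ψ (ι ξ * x) = 1) → x ∈ range ι`.

This is Tate's Theorem 4.1.4 (`K^⊥ = K` in the adeles) without any duality theory and without the
local theory: the annihilator is discrete by the tube lemma (a character of `A / K` which is
uniformly close to `1` on `C` is trivial), it meets `C` in a finite set, and it is a `K`-vector
space, hence `⊆ K` because `K` is infinite.  By-product: `ι K` is discrete
(`discrete_annihilator57`).
-/

set_option autoImplicit false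
set_option linter.unusedSectionVars false

namespace Fermat.Agent.LT.T3.H57

open Topology Filter Set

/-- A complex number of norm one whose real part is `≤ 1/2` is at distance `≥ 1` from `1`. -/
theorem half_lt_re_of_norm_sub_one_lt57 (w : ℂ) (hw : ‖w‖ = 1) (h : ‖w - 1‖ < 1) :
    1 / 2 < w.re := by
  have h1 : ‖w‖ ^ 2 = w.re ^ 2 + w.im ^ 2 := by
    rw [Complex.sq_norm, Complex.normSq_apply]; ring
  have h2 : ‖w - 1‖ ^ 2 = (w.re - 1) ^ 2 + w.im ^ 2 := by
    rw [Complex.sq_norm, Complex.normSq_apply]; simp; ring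
  have h3 : ‖w - 1‖ ^ 2 < 1 := by
    have := norm_nonneg (w - 1)
    nlinarith
  rw [hw] at h1
  nlinarith

/-- A complex number of norm one all of whose powers are at distance `< 1` from `1` is `1`. -/
theorem eq_one_of_forall_pow_near57 (z : ℂ) (hz : ‖z‖ = 1) (h : ∀ n : ℕ, ‖z ^ n - 1‖ < 1) :
    z = 1 := by
  by_contra hne
  have hpos : 0 < ‖z - 1‖ := norm_pos_iff.mpr (sub_ne_zero.mpr hne)
  have hre : ∀ k : ℕ, 1 / 2 < (z ^ k).re := fun k =>
    half_lt_re_of_norm_sub_one_lt57 (z ^ k) (by rw [norm_pow, hz, one_pow]) (h k)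
  have hsum : ∀ n : ℕ, (n : ℝ) / 2 ≤ ‖∑ k ∈ Finset.range n, z ^ k‖ := by
    intro n
    have h1 : (n : ℝ) / 2 ≤ (∑ k ∈ Finset.range n, z ^ k).re := by
      rw [Complex.re_sum]
      have : ∑ _k ∈ Finset.range n, (1 / 2 : ℝ) ≤ ∑ k ∈ Finset.range n, (z ^ k).re :=
        Finset.sum_le_sum fun k _ => (hre k).le
      simpa [div_eq_mul_inv] using this
    exact h1.trans (Complex.re_le_norm _)
  obtain ⟨n, hn⟩ := exists_nat_gt (2 / ‖z - 1‖)
  have h2 : ‖z - 1‖ * ‖∑ k ∈ Finset.range n, z ^ k‖ < 1 := by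
    rw [← norm_mul, mul_comm, geom_sum_mul]
    exact h n
  have h3 : ‖z - 1‖ * ((n : ℝ) / 2) < 1 :=
    lt_of_le_of_lt (mul_le_mul_of_nonneg_left (hsum n) hpos.le) h2
  have h4 : 2 < (n : ℝ) * ‖z - 1‖ := by
    rwa [div_lt_iff₀ hpos] at hn
  nlinarith

section

variable {A : Type*} [CommRing A] [TopologicalSpace A] [IsTopologicalRing A]
  {K : Type*} [Field K] (ι : K →+* A)
  (ψ : A → ℂ)

/-- The annihilator of `ι K` is discrete: there is a neighbourhood of `0` which meets it only in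
`0`.  No discreteness of `ι K` is assumed. -/
theorem discrete_annihilator57
    (hcc : ∃ C : Set A, IsCompact C ∧ ∀ x : A, ∃ ξ : K, x - ι ξ ∈ C)
    (hψc : Continuous ψ) (hψadd : ∀ x y, ψ (x + y) = ψ x * ψ y) (hψn : ∀ x, ‖ψ x‖ = 1)
    (hnd : ∀ x : A, (∀ y : A, ψ (x * y) = 1) → x = 0) :
    ∃ U : Set A, IsOpen U ∧ (0 : A) ∈ U ∧
      ∀ x ∈ U, (∀ ξ : K, ψ (ι ξ * x) = 1) → x = 0 := by
  obtain ⟨C, hC, hCK⟩ := hcc
  have hψ0 : ψ 0 = 1 := by
    have h := hψadd 0 0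
    rw [add_zero] at h
    have hne : ψ 0 ≠ 0 := by
      intro h0
      have := hψn 0
      rw [h0, norm_zero] at this
      exact zero_ne_one this
    exact (mul_eq_left₀ hne).mp h.symm
  have hψpow : ∀ (n : ℕ) (y : A), ψ (n • y) = ψ y ^ n := by
    intro n y
    induction n with
    | zero => simp [hψ0]
    | succ n ih => rw [succ_nsmul, hψadd, ih, pow_succ]
  let W : Set (A × A) := {p | ‖ψ (p.1 * p.2) - 1‖ < 1}
  have hW : IsOpen W := by
    have hc : Continuous fun p : A × A => ‖ψ (p.1 * p.2) - 1‖ :=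
      ((hψc.comp (continuous_fst.mul continuous_snd)).sub continuous_const).norm
    exact isOpen_lt hc continuous_const
  have hsub : ({0} : Set A) ×ˢ C ⊆ W := by
    rintro ⟨a, c⟩ ⟨ha, -⟩
    rw [mem_singleton_iff] at ha
    subst ha
    show ‖ψ (0 * c) - 1‖ < 1
    simp [hψ0]
  obtain ⟨U, V, hU, -, h0U, hCV, hUV⟩ := generalized_tube_lemma isCompact_singleton hC hW hsub
  refine ⟨U, hU, h0U (mem_singleton 0), fun x hxU hx => hnd x fun y => ?_⟩
  have hnear : ∀ y : A, ‖ψ (x * y) - 1‖ < 1 := by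
    intro y
    obtain ⟨ξ, hξ⟩ := hCK y
    have h1 : ψ (x * y) = ψ (x * (y - ι ξ)) := by
      have : x * y = x * (y - ι ξ) + ι ξ * x := by ring
      rw [this, hψadd, hx ξ, mul_one]
    rw [h1]
    exact hUV (mk_mem_prod hxU (hCV hξ))
  refine eq_one_of_forall_pow_near57 _ (hψn _) fun n => ?_
  rw [← hψpow, nsmul_eq_mul]
  have : (n : A) * (x * y) = x * ((n : A) * y) := by ring
  rw [this]
  exact hnear _

/-- **Annihilator lemma** (`K^⊥ = K`), abstract form. -/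
theorem annihilator_eq_range57 [Infinite K]
    (hcc : ∃ C : Set A, IsCompact C ∧ ∀ x : A, ∃ ξ : K, x - ι ξ ∈ C)
    (hψc : Continuous ψ) (hψadd : ∀ x y, ψ (x + y) = ψ x * ψ y) (hψn : ∀ x, ‖ψ x‖ = 1)
    (hψK : ∀ ξ : K, ψ (ι ξ) = 1)
    (hnd : ∀ x : A, (∀ y : A, ψ (x * y) = 1) → x = 0)
    (x : A) (hx : ∀ ξ : K, ψ (ι ξ * x) = 1) : ∃ ξ : K, x = ι ξ := by
  obtain ⟨U, hU, h0U, hUΛ⟩ := discrete_annihilator57 ι ψ hcc hψc hψadd hψn hnd
  obtain ⟨C, hC, hCK⟩ := hcc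
  -- a symmetric smaller neighbourhood
  have hsubc : Continuous fun p : A × A => p.1 - p.2 := continuous_fst.sub continuous_snd
  have hpre : IsOpen ((fun p : A × A => p.1 - p.2) ⁻¹' U) := hU.preimage hsubc
  have h00 : ((0 : A), (0 : A)) ∈ (fun p : A × A => p.1 - p.2) ⁻¹' U := by
    simpa using h0U
  obtain ⟨V₁, V₂, hV₁, hV₂, h0V₁, h0V₂, hVU⟩ := isOpen_prod_iff.mp hpre 0 0 h00
  let V : Set A := V₁ ∩ V₂
  have hV : IsOpen V := hV₁.inter hV₂
  have h0V : (0 : A) ∈ V := ⟨h0V₁, h0V₂⟩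
  have hVV : ∀ a ∈ V, ∀ b ∈ V, a - b ∈ U := fun a ha b hb =>
    hVU (mk_mem_prod ha.1 hb.2)
  -- the annihilator
  let Λ : Set A := {y | ∀ ξ : K, ψ (ι ξ * y) = 1}
  have hΛsub : ∀ a ∈ Λ, ∀ b ∈ Λ, a - b ∈ Λ := by
    intro a ha b hb ξ
    have h1 : ι ξ * a = ι ξ * (a - b) + ι ξ * b := by ring
    have h2 := hψadd (ι ξ * (a - b)) (ι ξ * b)
    rw [← h1, ha ξ, hb ξ, mul_one] at h2
    exact h2.symm
  have hΛK : ∀ η : K, ι η ∈ Λ := fun η ξ => by rw [← map_mul]; exact hψK _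
  have hΛmul : ∀ η : K, ∀ a ∈ Λ, ι η * a ∈ Λ := by
    intro η a ha ξ
    rw [← mul_assoc, ← map_mul]
    exact ha _
  -- `Λ ∩ C` is finite
  have hfin : (Λ ∩ C).Finite := by
    have hcov : C ⊆ ⋃ c : A, (fun a => a - c) ⁻¹' V := fun c _ =>
      mem_iUnion.mpr ⟨c, by simpa using h0V⟩
    obtain ⟨t, ht⟩ := hC.elim_finite_subcover (fun c : A => (fun a => a - c) ⁻¹' V)
      (fun c => hV.preimage (continuous_id.sub continuous_const)) hcov
    have hsubs : Λ ∩ C ⊆ ⋃ c ∈ t, (Λ ∩ (fun a => a - c) ⁻¹' V) := by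
      rintro a ⟨haΛ, haC⟩
      obtain ⟨c, hct, hac⟩ := mem_iUnion₂.mp (ht haC)
      exact mem_iUnion₂.mpr ⟨c, hct, haΛ, hac⟩
    refine (Set.Finite.biUnion t.finite_toSet fun c _ => ?_).subset hsubs
    refine Set.Subsingleton.finite ?_
    rintro a ⟨haΛ, haV⟩ b ⟨hbΛ, hbV⟩
    have h1 : a - b ∈ U := by
      have := hVV (a - c) haV (b - c) hbV
      simpa using this
    exact sub_eq_zero.mp (hUΛ (a - b) h1 (hΛsub a haΛ b hbΛ))
  -- pigeonhole
  have hxΛ : x ∈ Λ := hx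
  choose η hη using fun ξ : K => hCK (ι ξ * x)
  let F : K → A := fun ξ => ι ξ * x - ι (η ξ)
  have hF : ∀ ξ, F ξ ∈ Λ ∩ C := fun ξ =>
    ⟨hΛsub _ (hΛmul ξ x hxΛ) _ (hΛK _), hη ξ⟩
  obtain ⟨ξ, -, ξ', -, hne, heq⟩ :=
    Set.infinite_univ.exists_ne_map_eq_of_mapsTo (fun ξ _ => hF ξ) hfin
  have hd : ξ - ξ' ≠ 0 := sub_ne_zero.mpr hne
  refine ⟨(ξ - ξ')⁻¹ * (η ξ - η ξ'), ?_⟩
  have h1 : ι (ξ - ξ') * x = ι (η ξ - η ξ') := by
    have : ι ξ * x - ι (η ξ) = ι ξ' * x - ι (η ξ') := heq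
    rw [map_sub, map_sub, sub_mul]
    linear_combination this
  rw [map_mul, ← h1, ← mul_assoc, ← map_mul, inv_mul_cancel₀ hd, map_one, one_mul]

end

end Fermat.Agent.LT.T3.H57
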