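import Fermat.Agent.LT.T3.H57.PoissonAbs
import Fermat.Agent.LT.T3.H57.Annih

/-!
# Row LT, tower T3 (volunteer helper57): Poisson summation for a ring with a cocompact field

OFF-MAIN.  Mathlib only, no definitions.

`poisson_ring57` = Tate's Theorem 4.2.1 in abstract form: `A` a commutative topological ring
(Borel), `ι : K →+* A` a countable infinite field which is COCOMPACT (`A = C + ι K`, `C` compact),
`μ` a translation invariant measure, positive on open sets, with a fundamental domain `D` for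
`ι K` of measure `1`, `ψ` a continuous unitary additive character of `A`, trivial on `ι K` and
non-degenerate.  Then for `φ` continuous, integrable, with continuous periodisation and absolutely
summable Fourier transform on `K`:

  `∑' ξ : K, φ (ι ξ) = ∑' ξ : K, ∫ x, φ x * conj (ψ (ι ξ * x)) ∂μ`.

For `A = 𝔸_K` the inputs are: cocompactness of `K` in the adeles, a Haar measure of covolume `1`,
and a non-degenerate character (`nondegenerate_of_dense57`: any nontrivial `ψ` trivial on `K`, IF
strong approximation `K + x 𝔸_K` dense is known; the standard character directly).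
-/

set_option autoImplicit false
set_option linter.unusedSectionVars false

namespace Fermat.Agent.LT.T3.H57

open MeasureTheory Filter Set Topology ComplexConjugate

section

variable {A : Type*} [CommRing A] [TopologicalSpace A] [IsTopologicalRing A]
  {K : Type*} [Field K] (ι : K →+* A) (ψ : A → ℂ)

/-- Non-degeneracy of a nontrivial character trivial on `ι K`, from strong approximation. -/
theorem nondegenerate_of_dense57
    (hψc : Continuous ψ) (hψadd : ∀ x y, ψ (x + y) = ψ x * ψ y)
    (hψK : ∀ ξ : K, ψ (ι ξ) = 1) (hψne : ∃ x, ψ x ≠ 1)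
    (hSA : ∀ x : A, x ≠ 0 → Dense {y : A | ∃ (ξ : K) (a : A), y = ι ξ + x * a})
    (x : A) (hx : ∀ y : A, ψ (x * y) = 1) : x = 0 := by
  by_contra hne
  obtain ⟨z, hz⟩ := hψne
  apply hz
  have hcl : IsClosed {y : A | ψ y = 1} := isClosed_eq hψc continuous_const
  have hsub : {y : A | ∃ (ξ : K) (a : A), y = ι ξ + x * a} ⊆ {y : A | ψ y = 1} := by
    rintro y ⟨ξ, a, rfl⟩
    show ψ (ι ξ + x * a) = 1
    rw [hψadd, hψK, hx, mul_one]
  have := (hSA x hne).closure_eq ▸ closure_minimal hsub hcl
  exact this (mem_univ z)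

/-- Cocompactness in the compact-set form implies that the quotient group is compact. -/
theorem compactSpace_quotient_of_cocompact57
    (hcc : ∃ C : Set A, IsCompact C ∧ ∀ x : A, ∃ ξ : K, x - ι ξ ∈ C) :
    CompactSpace (A ⧸ ι.toAddMonoidHom.range) := by
  obtain ⟨C, hC, hCK⟩ := hcc
  have himg : IsCompact ((QuotientAddGroup.mk : A → A ⧸ ι.toAddMonoidHom.range) '' C) :=
    hC.image continuous_quot_mk
  have huniv : (QuotientAddGroup.mk : A → A ⧸ ι.toAddMonoidHom.range) '' C = univ := by
    refine eq_univ_of_forall fun q => ?_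
    induction q using QuotientAddGroup.induction_on with
    | H x =>
      obtain ⟨ξ, hξ⟩ := hCK x
      refine ⟨x - ι ξ, hξ, ?_⟩
      rw [sub_eq_add_neg]
      exact QuotientAddGroup.mk_add_of_mem x (neg_mem ⟨ξ, rfl⟩)
  rw [huniv] at himg
  exact isCompact_univ_iff.mp himg

end

section

variable {A : Type*} [CommRing A] [Nontrivial A] [TopologicalSpace A] [IsTopologicalRing A]
  [MeasurableSpace A] [BorelSpace A]
  {K : Type*} [Field K] [Infinite K] [Countable K] (ι : K →+* A)
  (μ : Measure A) [μ.IsAddLeftInvariant] [μ.IsOpenPosMeasure]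
  (D : Set A) (ψ : A → ℂ)

/-- **Poisson summation formula** for a commutative topological ring with a cocompact countable
field and a non-degenerate character (Tate, Theorem 4.2.1, abstract form). -/
theorem poisson_ring57
    (hcc : ∃ C : Set A, IsCompact C ∧ ∀ x : A, ∃ ξ : K, x - ι ξ ∈ C)
    (hD : IsAddFundamentalDomain ι.toAddMonoidHom.range D μ) (hvol : μ D = 1)
    (hψc : Continuous ψ) (hψadd : ∀ x y, ψ (x + y) = ψ x * ψ y) (hψn : ∀ x, ‖ψ x‖ = 1)
    (hψK : ∀ ξ : K, ψ (ι ξ) = 1)
    (hnd : ∀ x : A, (∀ y : A, ψ (x * y) = 1) → x = 0)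
    (φ : A → ℂ) (hφc : Continuous φ) (hφi : Integrable φ μ)
    (hΦc : Continuous fun x => ∑' ξ : K, φ (x + ι ξ))
    (hhat : Summable fun ξ : K => ‖∫ x, φ x * conj (ψ (ι ξ * x)) ∂μ‖) :
    ∑' ξ : K, φ (ι ξ) = ∑' ξ : K, ∫ x, φ x * conj (ψ (ι ξ * x)) ∂μ := by
  have hinj : Function.Injective ι := ι.injective
  let Γ : AddSubgroup A := ι.toAddMonoidHom.range
  -- `K ≃ Γ`
  let e : K ≃ Γ := Equiv.ofInjective ι hinj
  have he : ∀ ξ : K, ((e ξ : Γ) : A) = ι ξ := fun ξ => rfl
  have hcount : Countable Γ := e.symm.injective.countable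
  have hcomp : CompactSpace (A ⧸ Γ) := compactSpace_quotient_of_cocompact57 ι hcc
  have hsumΓ : ∀ f : A → ℂ, ∑' γ : Γ, f γ = ∑' ξ : K, f (ι ξ) := by
    intro f
    rw [← e.tsum_eq]
    rfl
  have hψ0 : ψ 0 = 1 := by
    have := hψK 0
    rwa [map_zero] at this
  have hψconj : ∀ x, ψ x * conj (ψ x) = 1 := by
    intro x
    rw [Complex.mul_conj, Complex.normSq_eq_norm_sq, hψn]
    simp
  have hψneg : ∀ x, ψ (-x) = conj (ψ x) := by
    intro x
    have h1 : ψ (-x) * ψ x = 1 := by rw [← hψadd, neg_add_cancel, hψ0]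
    have h2 : ψ x ≠ 0 := by
      intro h0
      have := hψn x
      rw [h0, norm_zero] at this
      exact zero_ne_one this
    have h3 : ψ (-x) * ψ x = conj (ψ x) * ψ x := by rw [h1, mul_comm, hψconj]
    exact mul_right_cancel₀ h2 h3
  -- the characters
  let χ : K → A → ℂ := fun ξ x => ψ (ι ξ * x)
  have hmain := poisson_abstract57 Γ μ D hD hvol χ
    (fun ξ => hψc.comp (continuous_const.mul continuous_id))
    (fun ξ x y => by show ψ (ι ξ * (x + y)) = _; rw [mul_add, hψadd])
    (fun ξ x => hψn _)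
    (fun ξ γ hγ => by
      obtain ⟨η, rfl⟩ := hγ
      show ψ (ι ξ * ι η) = 1
      rw [← map_mul]
      exact hψK _)
    (fun ξ ξ' h => by
      by_contra hne
      have hd : ξ - ξ' ≠ 0 := sub_ne_zero.mpr hne
      have h1 : ∀ y : A, ψ (ι (ξ - ξ') * y) = 1 := by
        intro y
        have h2 : ψ (ι ξ * y) = ψ (ι ξ' * y) := congrFun h y
        have h3 : ι (ξ - ξ') * y = ι ξ * y + -(ι ξ' * y) := by rw [map_sub]; ring
        rw [h3, hψadd, hψneg, h2, hψconj]
      have h4 := hnd _ h1
      exact hd (hinj (by rw [h4, map_zero])))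
    ⟨0, fun x => by show ψ (ι 0 * x) = 1; rw [map_zero, zero_mul, hψ0]⟩
    (fun ξ ξ' => ⟨ξ + ξ', fun x => by
      show ψ (ι (ξ + ξ') * x) = ψ (ι ξ * x) * ψ (ι ξ' * x)
      rw [map_add, add_mul, hψadd]⟩)
    (fun ξ => ⟨-ξ, fun x => by
      show ψ (ι (-ξ) * x) = conj (ψ (ι ξ * x))
      rw [map_neg, neg_mul, hψneg]⟩)
    (fun x hx => by
      obtain ⟨ξ, hξ⟩ := annihilator_eq_range57 ι ψ hcc hψc hψadd hψn hψK hnd x hx
      exact ⟨ξ, hξ.symm⟩)
    φ hφc hφi
    (by
      have : (fun x => ∑' γ : Γ, φ (x + γ)) = fun x => ∑' ξ : K, φ (x + ι ξ) := by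
        ext x
        exact hsumΓ fun y => φ (x + y)
      rw [this]
      exact hΦc)
    hhat
  rw [← hsumΓ φ]
  exact hmain

end

end Fermat.Agent.LT.T3.H57
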