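import Fermat.Agent.LT.T3.Spec
import Fermat.Agent.LT.T3.H57.PoissonRing
import Fermat.Agent.LT.T3.H57.CompleteAbs
import Fermat.Agent.LT.T3.H57.Periodise

/-!
# Row LT, tower T3 (volunteer helper57): the leaves T3.03, T3.04, T3.06 of `T3/Spec.lean` v2

OFF-MAIN.  Against `Fermat/Agent/LT/T3/Spec.lean` of helper14@0239b9a63 (sha256 44de320b8621) and
`LT/H556/A0.lean` (sha256 66d3374a79ca), byte-identical copies.

* `perpND57 : InLocCompC K → InLatticeC K → PerpNDC K`                       (T3.03)
* `completeND57 : InLocCompC K → InLatticeC K → InFundDomC K → PerpNDC K → CompleteNDC K` (T3.04)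
* `poissonND57 : InLocCompC K → InLatticeC K → InFundDomC K → CompleteNDC K → UnfoldC K →
    PoissonNDC K`                                                               (T3.06)

from the abstract theorems `annihilator_eq_range57`, `complete_abstract57`, `poisson_ring57`.
-/

set_option autoImplicit false
set_option linter.unusedSectionVars false
set_option linter.unusedVariables false
set_option linter.style.haveILetI false

open IsDedekindDomain NumberField MeasureTheory
open Fermat.Agent.LT.H556.A0 Fermat.Agent.LT.T3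
open ComplexConjugate

noncomputable section

namespace Fermat.Agent.LT.T3.H57

variable (K : Type) [Field K] [NumberField K]

/-- The complex valued function of a circle valued character. -/
def cval57 (ψ : AddChar (Adl K) Circle) : Adl K → ℂ := fun x => ((ψ x : Circle) : ℂ)

theorem cval57_cont (ψ : AddChar (Adl K) Circle) (h : Continuous ψ) :
    Continuous (cval57 K ψ) := continuous_subtype_val.comp h

theorem cval57_add (ψ : AddChar (Adl K) Circle) (x y : Adl K) :
    cval57 K ψ (x + y) = cval57 K ψ x * cval57 K ψ y := by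
  show ((ψ (x + y) : Circle) : ℂ) = _
  rw [AddChar.map_add_eq_mul, Circle.coe_mul]
  rfl

theorem cval57_norm (ψ : AddChar (Adl K) Circle) (x : Adl K) : ‖cval57 K ψ x‖ = 1 :=
  Circle.norm_coe _

theorem cval57_eq_one (ψ : AddChar (Adl K) Circle) (x : Adl K) :
    cval57 K ψ x = 1 ↔ ψ x = 1 := Circle.coe_eq_one

theorem cval57_neg (ψ : AddChar (Adl K) Circle) (x : Adl K) :
    cval57 K ψ (-x) = conj (cval57 K ψ x) := by
  show ((ψ (-x) : Circle) : ℂ) = _
  rw [AddChar.map_neg_eq_inv, Circle.coe_inv_eq_conj]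
  rfl

theorem nontrivial_adl57 : Nontrivial (Adl K) := by
  refine ⟨⟨0, 1, fun h => ?_⟩⟩
  have h1 : (0 : Adl K).1 = (1 : Adl K).1 := congrArg Prod.fst h
  exact zero_ne_one (α := InfiniteAdeleRing K) h1

theorem countable_range57 :
    Countable ((algebraMap K (Adl K)).toAddMonoidHom.range) := by
  have := countable_of_numberField57 K
  have hs : Function.Surjective
      (fun ξ : K => (⟨algebraMap K (Adl K) ξ, ξ, rfl⟩ :
        (algebraMap K (Adl K)).toAddMonoidHom.range)) := by
    rintro ⟨_, ξ, rfl⟩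
    exact ⟨ξ, rfl⟩
  exact hs.countable

/-- **T3.03** `PerpNDC`. -/
theorem perpND57 (_h1 : InLocCompC K) (h2 : InLatticeC K) : PerpNDC K := by
  intro ψ hψ hnd x hx
  obtain ⟨-, -, hcc⟩ := h2
  refine annihilator_eq_range57 (algebraMap K (Adl K)) (cval57 K ψ) hcc
    (cval57_cont K ψ hψ.cont) (cval57_add K ψ) (cval57_norm K ψ)
    (fun ξ => (cval57_eq_one K ψ _).mpr (hψ.triv ξ))
    (fun y hy => hnd y fun z => (cval57_eq_one K ψ _).mp (hy z)) x (fun ξ => ?_)
  rw [mul_comm]
  exact (cval57_eq_one K ψ _).mpr (hx ξ)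

/-- **T3.04** `CompleteNDC`. -/
theorem completeND57 (_h1 : InLocCompC K) (h2 : InLatticeC K) (h3 : InFundDomC K)
    (h4 : PerpNDC K) : CompleteNDC K := by
  letI : MeasurableSpace (Adl K) := borel (Adl K)
  haveI : BorelSpace (Adl K) := ⟨rfl⟩
  intro ψ hψ hnd μ hμ D hD F hFc hFper h0 x
  haveI := hμ
  obtain ⟨-, -, hcc⟩ := h2
  haveI := countable_range57 K
  haveI := compactSpace_quotient_of_cocompact57 (algebraMap K (Adl K)) hcc
  obtain ⟨D', -, hD', -, -, hD'fin⟩ := h3 μ hμ
  have hfin : μ D ≠ ⊤ := by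
    rw [hD.measure_eq hD']
    exact hD'fin.ne
  refine complete_abstract57 ((algebraMap K (Adl K)).toAddMonoidHom.range) μ D hD hfin
    (fun (η : K) (y : Adl K) => cval57 K ψ (y * emb K η))
    (fun η => (cval57_cont K ψ hψ.cont).comp (continuous_id.mul continuous_const))
    (fun η y z => by rw [add_mul, cval57_add])
    (fun η y => cval57_norm K ψ _)
    (fun η γ hγ => by
      obtain ⟨ξ, rfl⟩ := hγ
      show cval57 K ψ (algebraMap K (Adl K) ξ * emb K η) = 1
      rw [(cval57_eq_one K ψ _)]
      have := hψ.triv (ξ * η)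
      rwa [map_mul] at this)
    ⟨0, fun y => by
      show cval57 K ψ (y * emb K 0) = 1
      rw [map_zero, mul_zero, (cval57_eq_one K ψ _)]
      exact AddChar.map_zero_eq_one ψ⟩
    (fun η η' => ⟨η + η', fun y => by
      show cval57 K ψ (y * emb K (η + η')) = _
      rw [map_add, mul_add, cval57_add]⟩)
    (fun η => ⟨-η, fun y => by
      show cval57 K ψ (y * emb K (-η)) = _
      rw [map_neg, mul_neg, cval57_neg]⟩)
    (fun y hy => by
      obtain ⟨ξ₀, hξ₀⟩ := h4 ψ hψ hnd y fun ξ => (cval57_eq_one K ψ _).mp (hy ξ)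
      exact ⟨ξ₀, hξ₀.symm⟩)
    F hFc
    (fun γ hγ y => by
      obtain ⟨ξ, rfl⟩ := hγ
      rw [add_comm]
      exact hFper ξ y)
    (fun η => h0 η) x

/-- Normal convergence on compact sets implies continuity of the periodisation. -/
theorem continuous_of_normallySummable57 (h1 : InLocCompC K) (φ : Adl K → ℂ)
    (hφc : Continuous φ) (hφn : IsNormallySummable K φ) :
    Continuous fun x => ∑' ξ : K, φ (x + emb K ξ) := by
  haveI : LocallyCompactSpace (Adl K) := h1.1.1
  rw [continuous_iff_continuousAt]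
  intro x₀
  obtain ⟨C, hC, hCn⟩ := exists_compact_mem_nhds x₀
  obtain ⟨b, hb, hbφ⟩ := hφn C hC
  have hon : ContinuousOn (fun x => ∑' ξ : K, φ (x + emb K ξ)) C :=
    continuousOn_tsum
      (fun ξ => (hφc.comp (continuous_id.add continuous_const)).continuousOn) hb
      (fun ξ x hx => hbφ ξ x hx)
  exact hon.continuousAt hCn

/-- **T3.06** `PoissonNDC` (the hypotheses `CompleteNDC`, `UnfoldC` of the leaf shape are not
used: the abstract theorem contains them). -/
theorem poissonND57 (h1 : InLocCompC K) (h2 : InLatticeC K) (_h3 : InFundDomC K)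
    (_h4 : CompleteNDC K) (_h5 : UnfoldC K) : PoissonNDC K := by
  letI : MeasurableSpace (Adl K) := borel (Adl K)
  haveI : BorelSpace (Adl K) := ⟨rfl⟩
  intro ψ hψ hnd μ hμ hcov φ hφc hφi hφn hhat
  haveI := hμ
  obtain ⟨D, hD, hvol⟩ := hcov
  obtain ⟨-, -, hcc⟩ := h2
  haveI := countable_of_numberField57 K
  haveI := nontrivial_adl57 K
  -- the conjugate character
  let ψc : Adl K → ℂ := fun y => cval57 K ψ (-y)
  have hψc_conj : ∀ y, conj (ψc y) = cval57 K ψ y := fun y => by
    show conj (cval57 K ψ (-y)) = _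
    rw [cval57_neg, Complex.conj_conj]
  have hF : ∀ ξ : K, fourierAd K ψ μ φ (emb K ξ)
      = ∫ x, φ x * conj (ψc (algebraMap K (Adl K) ξ * x)) ∂μ := by
    intro ξ
    show ∫ x, φ x * ((ψ (x * emb K ξ) : Circle) : ℂ) ∂μ = _
    congr 1
    ext x
    rw [hψc_conj, mul_comm (algebraMap K (Adl K) ξ) x]
    rfl
  simp only [hF] at hhat ⊢
  exact poisson_ring57 (algebraMap K (Adl K)) μ D ψc hcc hD hvol
    ((cval57_cont K ψ hψ.cont).comp continuous_neg)
    (fun x y => by
      show cval57 K ψ (-(x + y)) = cval57 K ψ (-x) * cval57 K ψ (-y)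
      rw [neg_add, cval57_add])
    (fun x => cval57_norm K ψ _)
    (fun ξ => by
      show cval57 K ψ (-(algebraMap K (Adl K) ξ)) = 1
      rw [← map_neg, (cval57_eq_one K ψ _)]
      exact hψ.triv (-ξ))
    (fun x hx => hnd x fun y => by
      have := hx (-y)
      have h' : cval57 K ψ (-(x * -y)) = 1 := this
      rw [mul_neg, neg_neg] at h'
      exact (cval57_eq_one K ψ _).mp h')
    φ hφc hφi (continuous_of_normallySummable57 K h1 φ hφc hφn) hhat

/-- The three leaves in the exact shape of the fields of `T3.Leaves`. -/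
theorem leaves_shape57 :
    (InLocCompC K → InLatticeC K → PerpNDC K) ∧
    (InLocCompC K → InLatticeC K → InFundDomC K → PerpNDC K → CompleteNDC K) ∧
    (InLocCompC K → InLatticeC K → InFundDomC K → CompleteNDC K → UnfoldC K → PoissonNDC K) :=
  ⟨perpND57 K, completeND57 K, poissonND57 K⟩

end Fermat.Agent.LT.T3.H57

end
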