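import Mathlib

/-!
# Row LT, tower T3, station T3.18a, leaf AS.5 `ROpC` (helper57, OFF-MAIN): abstract measure theory

Mathlib only.

* `integral_eq_smul_of_hasCompactSupport57` : the complex form of Haar uniqueness on continuous
  functions of compact support;
* `pushforward_haar57` : `U ⊆ G` open, `π : G →* H` continuous with a homomorphic section `ι`
  which preserves `U`, and `μ (U ∩ π⁻¹ C) < ∞` for compact `C`.  Then the image of `μ|_U` under
  `π` is a Haar measure of `H`: `∫_U f(π x) dμ = c ∫_H f dν`, `c > 0` independent of `f`;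
* `integral_pi_eigen57` : finite Fubini, one coordinate at a time, for a function on `Lⁿ` which
  is an eigenfunction of the right convolution by `F i` in the `i`-th coordinate.
-/

set_option autoImplicit false

open MeasureTheory Measure
open scoped ENNReal NNReal

noncomputable section

namespace Fermat.Agent.LT.T3.H57

/-- Haar uniqueness on continuous functions of compact support, complex values. -/
theorem integral_eq_smul_of_hasCompactSupport57 {G : Type*} [TopologicalSpace G] [Group G]
    [IsTopologicalGroup G] [MeasurableSpace G] [BorelSpace G]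
    (μ' μ : Measure G) [IsHaarMeasure μ] [IsFiniteMeasureOnCompacts μ'] [IsMulLeftInvariant μ']
    {f : G → ℂ} (hf : Continuous f) (h'f : HasCompactSupport f) :
    ∫ x, f x ∂μ' = ((haarScalarFactor μ' μ : ℝ≥0) : ℝ) • ∫ x, f x ∂μ := by
  have hi' : Integrable f μ' := hf.integrable_of_hasCompactSupport h'f
  have hi : Integrable f μ := hf.integrable_of_hasCompactSupport h'f
  have hre := integral_isMulLeftInvariant_eq_smul_of_hasCompactSupport μ' μ
    (Complex.continuous_re.comp hf) (h'f.comp_left Complex.zero_re)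
  have him := integral_isMulLeftInvariant_eq_smul_of_hasCompactSupport μ' μ
    (Complex.continuous_im.comp hf) (h'f.comp_left Complex.zero_im)
  rw [integral_smul_nnreal_measure] at hre him
  simp only [Function.comp_apply] at hre him
  have e1 : (∫ x, f x ∂μ').re = ∫ x, (f x).re ∂μ' := (integral_re hi').symm
  have e2 : (∫ x, f x ∂μ').im = ∫ x, (f x).im ∂μ' := (integral_im hi').symm
  have e3 : (∫ x, f x ∂μ).re = ∫ x, (f x).re ∂μ := (integral_re hi).symm
  have e4 : (∫ x, f x ∂μ).im = ∫ x, (f x).im ∂μ := (integral_im hi).symm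
  apply Complex.ext
  · rw [e1, hre, Complex.real_smul, Complex.re_ofReal_mul, e3]; rfl
  · rw [e2, him, Complex.real_smul, Complex.im_ofReal_mul, e4]; rfl

/-- The image of `μ|_U` under `π` is a Haar measure. -/
theorem pushforward_haar57 {G H : Type*} [Group G] [TopologicalSpace G] [IsTopologicalGroup G]
    [MeasurableSpace G] [BorelSpace G]
    [Group H] [TopologicalSpace H] [IsTopologicalGroup H] [MeasurableSpace H] [BorelSpace H]
    (μ : Measure G) [μ.IsHaarMeasure] (ν : Measure H) [ν.IsHaarMeasure]
    (U : Set G) (hUo : IsOpen U) (π : G →* H) (hπ : Continuous π) (ι : H →* G)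
    (hπι : ∀ t, π (ι t) = t) (hιU : ∀ t x, x ∈ U → ι t * x ∈ U) (h1 : (1 : G) ∈ U)
    (hfin : ∀ C : Set H, IsCompact C → μ (U ∩ π ⁻¹' C) < ∞) :
    ∃ c : ℝ, 0 < c ∧ ∀ f : H → ℂ, Continuous f → HasCompactSupport f →
      IntegrableOn (fun x => f (π x)) U μ ∧ ∫ x in U, f (π x) ∂μ = c • ∫ t, f t ∂ν := by
  have hπm : Measurable π := hπ.measurable
  have hUm : MeasurableSet U := hUo.measurableSet
  set ρ : Measure H := (μ.restrict U).map π with hρ
  have hρ_apply : ∀ E : Set H, MeasurableSet E → ρ E = μ (π ⁻¹' E ∩ U) := by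
    intro E hE
    rw [hρ, Measure.map_apply hπm hE, Measure.restrict_apply (hπm hE)]
  have : IsFiniteMeasureOnCompacts ρ := by
    refine ⟨fun C hC => ?_⟩
    have hcl : IsCompact (closure C) := hC.closure
    calc ρ C ≤ ρ (closure C) := measure_mono subset_closure
      _ = μ (π ⁻¹' closure C ∩ U) := hρ_apply _ isClosed_closure.measurableSet
      _ = μ (U ∩ π ⁻¹' closure C) := by rw [Set.inter_comm]
      _ < ∞ := hfin _ hcl
  have hUiff : ∀ t x, ι t * x ∈ U ↔ x ∈ U := by
    intro t x
    refine ⟨fun h => ?_, hιU t x⟩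
    have := hιU t⁻¹ _ h
    rwa [map_inv, inv_mul_cancel_left] at this
  have : IsMulLeftInvariant ρ := by
    refine ⟨fun t => ?_⟩
    refine Measure.ext fun E hE => ?_
    have hE' : MeasurableSet ((fun x => t * x) ⁻¹' E) := (measurable_const_mul t) hE
    rw [Measure.map_apply (measurable_const_mul t) hE, hρ_apply _ hE', hρ_apply _ hE]
    have hset : π ⁻¹' ((fun x => t * x) ⁻¹' E) ∩ U = (fun x => ι t * x) ⁻¹' (π ⁻¹' E ∩ U) := by
      ext x
      simp only [Set.mem_inter_iff, Set.mem_preimage, map_mul, hπι, hUiff]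
    rw [hset]
    exact measure_preimage_mul μ (ι t) _
  have : IsOpenPosMeasure ρ := by
    refine ⟨fun V hV hne => ?_⟩
    rw [hρ_apply _ hV.measurableSet]
    obtain ⟨t, ht⟩ := hne
    refine ((hV.preimage hπ).inter hUo).measure_ne_zero μ ⟨ι t, ?_, ?_⟩
    · simpa [hπι] using ht
    · simpa using hιU t 1 h1
  have : IsHaarMeasure ρ := {}
  refine ⟨((haarScalarFactor ρ ν : ℝ≥0) : ℝ), ?_, fun f hf h'f => ⟨?_, ?_⟩⟩
  · exact_mod_cast haarScalarFactor_pos_of_isHaarMeasure ρ ν
  · have hi : Integrable f ρ := hf.integrable_of_hasCompactSupport h'f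
    have := (integrable_map_measure hf.aestronglyMeasurable hπm.aemeasurable).1 hi
    exact this
  · have := integral_eq_smul_of_hasCompactSupport57 ρ ν hf h'f
    rw [← this, hρ, integral_map hπm.aemeasurable hf.aestronglyMeasurable]

/-- The function `t ↦ Φ t * ∏ i, F i (t i)` has compact support. -/
theorem hasCompactSupport_mul_prod57 {L : Type*} [TopologicalSpace L] [R1Space L]
    (n : ℕ) (Φ : (Fin n → L) → ℂ) (F : Fin n → L → ℂ) (hFs : ∀ i, HasCompactSupport (F i)) :
    HasCompactSupport (fun t : Fin n → L => Φ t * ∏ i, F i (t i)) := by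
  have hK : IsCompact (Set.pi Set.univ fun i : Fin n => tsupport (F i)) :=
    isCompact_univ_pi fun i => hFs i
  refine HasCompactSupport.of_support_subset_isCompact hK ?_
  intro t ht
  rw [Function.mem_support] at ht
  intro i _
  by_contra hi
  have h0 : F i (t i) = 0 := image_eq_zero_of_notMem_tsupport hi
  exact ht (by rw [Finset.prod_eq_zero (Finset.mem_univ i) h0, mul_zero])

/-- FINITE FUBINI.  If `Φ` is an eigenfunction of the right convolution by `F i` in the `i`-th
coordinate, with eigenvalue `C i`, for every `i`, then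
`∫ Φ(t) ∏ F_i(t_i) dt = (∏ C_i) Φ(1)`. -/
theorem integral_pi_eigen57 {L : Type*} [Group L] [TopologicalSpace L] [IsTopologicalGroup L]
    [MeasurableSpace L] [BorelSpace L] [SecondCountableTopology L]
    (μc : Measure L) [SigmaFinite μc] [IsFiniteMeasureOnCompacts μc] :
    ∀ (n : ℕ) (Φ : (Fin n → L) → ℂ), Continuous Φ →
    ∀ (F : Fin n → L → ℂ), (∀ i, Continuous (F i)) → (∀ i, HasCompactSupport (F i)) →
    ∀ C : Fin n → ℂ,
      (∀ i t, ∫ s, Φ (Function.update t i (t i * s)) * F i s ∂μc = C i * Φ t) →
      ∫ t, Φ t * ∏ i, F i (t i) ∂(Measure.pi fun _ : Fin n => μc) = (∏ i, C i) * Φ 1 := by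
  intro n
  induction n with
  | zero =>
    intro Φ _ F _ _ C _
    have hsub : ∀ t : Fin 0 → L, t = 1 := fun t => Subsingleton.elim _ _
    rw [Measure.pi_of_empty, integral_dirac]
    simp [hsub]
  | succ n ih =>
    intro Φ hΦ F hFc hFs C h
    obtain ⟨e, he⟩ : ∃ e : (Fin (n + 1) → L) ≃ᵐ L × (Fin n → L),
        e = MeasurableEquiv.piFinSuccAbove (fun _ : Fin (n + 1) => L) 0 := ⟨_, rfl⟩
    have hmp : MeasurePreserving e (Measure.pi fun _ : Fin (n + 1) => μc)
        (μc.prod (Measure.pi fun _ : Fin n => μc)) := by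
      rw [he]; exact measurePreserving_piFinSuccAbove (fun _ : Fin (n + 1) => μc) 0
    set g : (Fin (n + 1) → L) → ℂ := fun t => Φ t * ∏ i, F i (t i) with hg
    have hgc : Continuous g :=
      hΦ.mul (continuous_finsetProd _ fun i _ => (hFc i).comp (continuous_apply i))
    have hgs : HasCompactSupport g := hasCompactSupport_mul_prod57 (n + 1) Φ F hFs
    have hgi : Integrable g (Measure.pi fun _ : Fin (n + 1) => μc) :=
      hgc.integrable_of_hasCompactSupport hgs
    set g' : L × (Fin n → L) → ℂ := fun p => g (e.symm p) with hg'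
    have hgg' : ∀ t, g t = g' (e t) := fun t => (congrArg g (e.symm_apply_apply t)).symm
    have hg'i : Integrable g' (μc.prod (Measure.pi fun _ : Fin n => μc)) := by
      have := (hmp.integrable_comp_emb e.measurableEmbedding (g := g')).1
      apply this
      have hcomp : g' ∘ e = g := funext fun t => (hgg' t).symm
      rw [hcomp]
      exact hgi
    have hes : ∀ (s : L) (t' : Fin n → L), e.symm (s, t') = Fin.cons s t' := by
      intro s t'
      rw [he]
      simp [MeasurableEquiv.piFinSuccAbove]
      rfl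
    have h1 : ∫ t, g t ∂(Measure.pi fun _ : Fin (n + 1) => μc)
        = ∫ p, g' p ∂(μc.prod (Measure.pi fun _ : Fin n => μc)) := by
      rw [← hmp.integral_comp' (f := e) g']
      exact integral_congr_ae (Filter.Eventually.of_forall hgg')
    rw [h1, integral_prod_symm _ hg'i]
    have hinner : ∀ t' : Fin n → L, ∫ s, g' (s, t') ∂μc
        = C 0 * ((fun t' : Fin n → L => Φ (Fin.cons 1 t')) t' * ∏ i : Fin n, F i.succ (t' i)) := by
      intro t'
      have hh := h 0 (Fin.cons 1 t')
      simp only [Fin.cons_zero, one_mul, Fin.update_cons_zero] at hh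
      have : ∀ s, g' (s, t') = (Φ (Fin.cons s t') * F 0 s) * ∏ i : Fin n, F i.succ (t' i) := by
        intro s
        simp only [hg', hg, hes, Fin.prod_univ_succ, Fin.cons_zero, Fin.cons_succ]
        ring
      simp_rw [this]
      rw [integral_mul_const, hh]
      ring
    simp_rw [hinner]
    rw [integral_const_mul]
    rw [ih (fun t' => Φ (Fin.cons 1 t')) (hΦ.comp (by fun_prop)) (fun i => F i.succ)
      (fun i => hFc _) (fun i => hFs _) (fun i => C i.succ) ?_]
    · rw [Fin.prod_univ_succ]
      have : (Fin.cons 1 1 : Fin (n + 1) → L) = 1 := by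
        funext i
        refine Fin.cases ?_ (fun j => ?_) i <;> simp
      rw [this]
      ring
    · intro i t'
      have hh := h i.succ (Fin.cons 1 t')
      simp only [Fin.cons_succ] at hh
      rw [← hh]
      refine integral_congr_ae (Filter.Eventually.of_forall fun s => ?_)
      simp only [Fin.cons_update]


end Fermat.Agent.LT.T3.H57

end
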