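import Mathlib
import Fermat.Agent.LT.H556.A0
import Fermat.Agent.LT.T1.H724.HeckeCoset
import Fermat.Agent.LT.T1.H793.K0Compact

/-!
# Row LT, tower T3, station T3.18a, leaf AS.5 `ROpC` (helper57, OFF-MAIN): topology

* `secondCountable_GL2C57`, `locallyCompact_GL2C57` : `GL₂(ℂ)` (units topology);
* `integers_subset_closure57` : `𝓞 K` is dense in `𝒪_v`;
* `idealClosure_subset57`, `mul_mem_idealClosure57`, `isOpen_idealClosure57`,
  `idealClosure_eq57` (`v ∤ 𝔫`), `finite_bad57`;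
* `isOpen_inU057` : the subgroup `G_∞ × U(𝔫)_f` of `GL₂(𝔸_K)` is open.
-/

set_option autoImplicit false

open IsDedekindDomain NumberField Topology
open Fermat.Agent.LT.H556.A0
open Fermat.Agent.LT.T1.H724 Fermat.Agent.LT.T1.H793
open scoped RestrictedProduct

noncomputable section

namespace Fermat.Agent.LT.T3.H57

/-! ## `GL₂(ℂ)` -/

theorem secondCountable_mat57 : SecondCountableTopology (Matrix (Fin 2) (Fin 2) ℂ) :=
  inferInstanceAs (SecondCountableTopology (Fin 2 → Fin 2 → ℂ))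

theorem locallyCompact_mat57 : LocallyCompactSpace (Matrix (Fin 2) (Fin 2) ℂ) :=
  inferInstanceAs (LocallyCompactSpace (Fin 2 → Fin 2 → ℂ))

theorem secondCountable_GL2C57 : SecondCountableTopology (GL (Fin 2) ℂ) := by
  have := secondCountable_mat57
  have : SecondCountableTopology (Matrix (Fin 2) (Fin 2) ℂ)ᵐᵒᵖ :=
    MulOpposite.opHomeomorph.symm.secondCountableTopology
  exact (Units.isEmbedding_embedProduct (M := Matrix (Fin 2) (Fin 2) ℂ)).secondCountableTopology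

theorem locallyCompact_GL2C57 : LocallyCompactSpace (GL (Fin 2) ℂ) := by
  have := locallyCompact_mat57
  exact (Units.isClosedEmbedding_embedProduct (α := Matrix (Fin 2) (Fin 2) ℂ)).locallyCompactSpace

/-! ## The closure of an ideal in a completion -/

variable {K : Type} [Field K] [NumberField K]

theorem exists_ball57 (v : HeightOneSpectrum (𝓞 K)) (x : v.adicCompletion K)
    (s : Set (v.adicCompletion K)) (hs : s ∈ 𝓝 x) :
    ∃ (γ : WithZero (Multiplicative ℤ)) (B : Set (v.adicCompletion K)), γ ≠ 0 ∧ B ∈ 𝓝 x ∧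
      B ⊆ s ∧ ∀ y, y ∈ B ↔ Valued.v (y - x) < γ := by
  have hs' := hs
  rw [Valued.mem_nhds] at hs'
  obtain ⟨γ, hγ⟩ := hs'
  refine ⟨MonoidWithZeroHom.ValueGroup₀.embedding γ.1,
    {y | Valued.v.restrict (y - x) < γ.1}, ?_, ?_, hγ, ?_⟩
  · exact (map_ne_zero _).2 γ.ne_zero
  · rw [Valued.mem_nhds]
    exact ⟨γ, subset_rfl⟩
  · intro y
    exact Valuation.restrict_lt_iff_lt_embedding _

/-- `𝓞 K` is dense in `𝒪_v`. -/
theorem integers_subset_closure57 (v : HeightOneSpectrum (𝓞 K)) :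
    (v.adicCompletionIntegers K : Set (v.adicCompletion K))
      ⊆ closure (Set.range fun r : 𝓞 K =>
          algebraMap K (v.adicCompletion K) (algebraMap (𝓞 K) K r)) := by
  intro x hx
  rw [mem_closure_iff_nhds]
  intro t ht
  have hO : (v.adicCompletionIntegers K : Set (v.adicCompletion K)) ∈ 𝓝 x :=
    (Valued.isOpen_valuationSubring _).mem_nhds hx
  obtain ⟨γ, B, hγ, hB, hBs, hBiff⟩ := exists_ball57 v x _ (Filter.inter_mem ht hO)
  have hd := HeightOneSpectrum.denseRange_algebraMap K v x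
  rw [mem_closure_iff_nhds] at hd
  obtain ⟨_, hkB, k, rfl⟩ := hd B hB
  have hkO : algebraMap K (v.adicCompletion K) k ∈ v.adicCompletionIntegers K := (hBs hkB).2
  have hk1 : v.valuation K k ≤ 1 := by
    rw [← val_algebraMap724]
    exact hkO
  obtain ⟨a, ha⟩ := v.exists_valuation_sub_lt_of_integer hk1 (Units.mk0 γ hγ)
  have ha' : Valued.v (algebraMap K (v.adicCompletion K) (algebraMap (𝓞 K) K a - k)) < γ := by
    rw [val_algebraMap724]
    exact ha
  have hkx : Valued.v (algebraMap K (v.adicCompletion K) k - x) < γ := (hBiff _).1 hkB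
  refine ⟨algebraMap K (v.adicCompletion K) (algebraMap (𝓞 K) K a), ?_, a, rfl⟩
  refine (hBs ((hBiff _).2 ?_)).1
  have e : algebraMap K (v.adicCompletion K) (algebraMap (𝓞 K) K a) - x
      = algebraMap K (v.adicCompletion K) (algebraMap (𝓞 K) K a - k)
        + (algebraMap K (v.adicCompletion K) k - x) := by
    rw [map_sub]; ring
  rw [e]
  exact lt_of_le_of_lt (Valuation.map_add _ _ _) (max_lt ha' hkx)

theorem idealClosure_subset57 (𝔫 : Ideal (𝓞 K)) (v : HeightOneSpectrum (𝓞 K)) :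
    idealClosure 𝔫 v ⊆ (v.adicCompletionIntegers K : Set (v.adicCompletion K)) := by
  refine closure_minimal ?_ (Valued.isClosed_valuationSubring _)
  rintro _ ⟨r, _, rfl⟩
  exact val_int_le_one724 v r

theorem zero_mem_idealClosure57 (𝔫 : Ideal (𝓞 K)) (v : HeightOneSpectrum (𝓞 K)) :
    (0 : v.adicCompletion K) ∈ idealClosure 𝔫 v :=
  subset_closure ⟨0, 𝔫.zero_mem, by simp⟩

theorem add_mem_idealClosure57 (𝔫 : Ideal (𝓞 K)) (v : HeightOneSpectrum (𝓞 K))
    {x y : v.adicCompletion K} (hx : x ∈ idealClosure 𝔫 v) (hy : y ∈ idealClosure 𝔫 v) :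
    x + y ∈ idealClosure 𝔫 v := by
  have h : Continuous fun p : v.adicCompletion K × v.adicCompletion K => p.1 + p.2 :=
    continuous_add
  refine map_mem_closure₂ h hx hy ?_
  rintro _ ⟨a, ha, rfl⟩ _ ⟨b, hb, rfl⟩
  exact ⟨a + b, 𝔫.add_mem ha hb, by simp⟩

/-- `a 𝒪_v ⊆ closure of 𝔫` for `a ∈ 𝔫`. -/
theorem mul_mem_idealClosure57 (𝔫 : Ideal (𝓞 K)) (v : HeightOneSpectrum (𝓞 K)) {a : 𝓞 K}
    (ha : a ∈ 𝔫) {x : v.adicCompletion K} (hx : x ∈ v.adicCompletionIntegers K) :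
    algebraMap K (v.adicCompletion K) (algebraMap (𝓞 K) K a) * x ∈ idealClosure 𝔫 v := by
  have hc : Continuous fun y : v.adicCompletion K =>
      algebraMap K (v.adicCompletion K) (algebraMap (𝓞 K) K a) * y := continuous_const.mul continuous_id
  refine map_mem_closure hc (integers_subset_closure57 v hx) ?_
  rintro _ ⟨r, rfl⟩
  exact ⟨a * r, 𝔫.mul_mem_right r ha, by simp⟩

/-- `v ∤ 𝔫`: the closure of `𝔫` is `𝒪_v`. -/
theorem idealClosure_eq57 (𝔫 : Ideal (𝓞 K)) (v : HeightOneSpectrum (𝓞 K))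
    (hv : ¬ v.asIdeal ∣ 𝔫) :
    idealClosure 𝔫 v = (v.adicCompletionIntegers K : Set (v.adicCompletion K)) := by
  refine Set.Subset.antisymm (idealClosure_subset57 𝔫 v) ?_
  intro x hx
  have hle : ¬ 𝔫 ≤ v.asIdeal := fun h => hv (Ideal.dvd_iff_le.2 h)
  obtain ⟨a, ha, hav⟩ := Set.not_subset.1 hle
  set a' : v.adicCompletion K := algebraMap K (v.adicCompletion K) (algebraMap (𝓞 K) K a) with ha'
  have hval : Valued.v a' = 1 := by
    have h1 : Valued.v a' ≤ 1 := val_int_le_one724 v a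
    have h2 : ¬ Valued.v a' < 1 := fun h => hav ((val_int_lt_one_iff724 v a).1 h)
    exact le_antisymm h1 (not_lt.1 h2)
  have hne : a' ≠ 0 := by
    intro h0
    rw [h0, map_zero] at hval
    exact zero_ne_one hval
  have hx' : a'⁻¹ * x ∈ v.adicCompletionIntegers K := by
    change Valued.v (a'⁻¹ * x) ≤ 1
    rw [map_mul, map_inv₀, hval, inv_one, one_mul]
    exact hx
  have := mul_mem_idealClosure57 𝔫 v ha hx'
  rwa [← ha', mul_inv_cancel_left₀ hne] at this

/-- The closure of a nonzero ideal is open. -/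
theorem isOpen_idealClosure57 (𝔫 : Ideal (𝓞 K)) (h𝔫 : 𝔫 ≠ ⊥) (v : HeightOneSpectrum (𝓞 K)) :
    IsOpen (idealClosure 𝔫 v) := by
  obtain ⟨a, ha, ha0⟩ := Submodule.exists_mem_ne_zero_of_ne_bot h𝔫
  set a' : v.adicCompletion K := algebraMap K (v.adicCompletion K) (algebraMap (𝓞 K) K a) with ha'
  have hne : a' ≠ 0 := by
    rw [ha', ← IsScalarTower.algebraMap_apply]
    intro h0
    have hinj : Function.Injective (algebraMap (𝓞 K) (v.adicCompletion K)) := by
      rw [IsScalarTower.algebraMap_eq (𝓞 K) K (v.adicCompletion K)]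
      exact (algebraMap K (v.adicCompletion K)).injective.comp
        (IsFractionRing.injective (𝓞 K) K)
    exact ha0 (hinj (by rw [h0, map_zero]))
  rw [isOpen_iff_mem_nhds]
  intro y hy
  have hopen : IsOpen {z : v.adicCompletion K | a'⁻¹ * (z - y) ∈ v.adicCompletionIntegers K} :=
    (Valued.isOpen_valuationSubring _).preimage
      (continuous_const.mul (continuous_id.sub continuous_const))
  refine Filter.mem_of_superset (hopen.mem_nhds ?_) ?_
  · change a'⁻¹ * (y - y) ∈ v.adicCompletionIntegers K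
    rw [sub_self, mul_zero]
    exact zero_mem _
  · intro z hz
    have h1 := mul_mem_idealClosure57 𝔫 v ha hz
    rw [← ha', mul_inv_cancel_left₀ hne] at h1
    have := add_mem_idealClosure57 𝔫 v h1 hy
    rwa [sub_add_cancel] at this

/-- For almost all `v` the closure of `𝔫` is `𝒪_v`. -/
theorem finite_bad57 (𝔫 : Ideal (𝓞 K)) (h𝔫 : 𝔫 ≠ ⊥) :
    {v : HeightOneSpectrum (𝓞 K) | v.asIdeal ∣ 𝔫}.Finite :=
  Ideal.finite_factors h𝔫

/-! ## The open subgroup `G_∞ × U(𝔫)_f` -/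

/-- `x_v ∈ U(𝔫)_v` for every finite place `v`. -/
def InU057 (𝔫 : Ideal (𝓞 K)) (x : G K) : Prop :=
  ∀ (v : HeightOneSpectrum (𝓞 K)) (i j : Fin 2),
    (finComp v x - 1) i j ∈ idealClosure 𝔫 v ∧ (finComp v x⁻¹ - 1) i j ∈ idealClosure 𝔫 v

/-- The adeles `a` with `a_v - δ ∈ closure of 𝔫` for all `v`. -/
def adlNbhd57 (𝔫 : Ideal (𝓞 K)) (δ : ℤ) : Set (Adl K) :=
  {a | ∀ v : HeightOneSpectrum (𝓞 K), a.2 v - (δ : v.adicCompletion K) ∈ idealClosure 𝔫 v}

theorem isOpen_adlNbhd57 (𝔫 : Ideal (𝓞 K)) (h𝔫 : 𝔫 ≠ ⊥) (δ : ℤ) :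
    IsOpen (adlNbhd57 𝔫 δ : Set (Adl K)) := by
  classical
  have hfin := finite_bad57 𝔫 h𝔫
  have hδ : ∀ v : HeightOneSpectrum (𝓞 K),
      ((δ : v.adicCompletion K)) ∈ v.adicCompletionIntegers K := fun v => by
    exact intCast_mem _ δ
  -- the finite adeles which are integral outside the bad set
  have h1 : IsOpen {f : FiniteAdeleRing (𝓞 K) K |
      ∀ v : HeightOneSpectrum (𝓞 K), ¬ v.asIdeal ∣ 𝔫 →
        f v ∈ (v.adicCompletionIntegers K : Set (v.adicCompletion K))} :=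
    RestrictedProduct.isOpen_forall_imp_mem
      (fun v => Valued.isOpen_valuationSubring (v.adicCompletion K))
  have h2 : ∀ v : HeightOneSpectrum (𝓞 K), IsOpen {f : FiniteAdeleRing (𝓞 K) K |
      f v - (δ : v.adicCompletion K) ∈ idealClosure 𝔫 v} := fun v =>
    (isOpen_idealClosure57 𝔫 h𝔫 v).preimage
      ((RestrictedProduct.continuous_eval v).sub continuous_const)
  have h3 : IsOpen (⋂ v ∈ {v : HeightOneSpectrum (𝓞 K) | v.asIdeal ∣ 𝔫},
      {f : FiniteAdeleRing (𝓞 K) K | f v - (δ : v.adicCompletion K) ∈ idealClosure 𝔫 v}) :=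
    hfin.isOpen_biInter fun v _ => h2 v
  have hset : (adlNbhd57 𝔫 δ : Set (Adl K)) = Prod.snd ⁻¹'
      ({f : FiniteAdeleRing (𝓞 K) K | ∀ v : HeightOneSpectrum (𝓞 K), ¬ v.asIdeal ∣ 𝔫 →
        f v ∈ (v.adicCompletionIntegers K : Set (v.adicCompletion K))} ∩
      ⋂ v ∈ {v : HeightOneSpectrum (𝓞 K) | v.asIdeal ∣ 𝔫},
      {f : FiniteAdeleRing (𝓞 K) K | f v - (δ : v.adicCompletion K) ∈ idealClosure 𝔫 v}) := by
    ext a
    constructor
    · intro h
      refine ⟨fun v _ => ?_, ?_⟩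
      · have := sub_mem (idealClosure_subset57 𝔫 v (h v)) (neg_mem (hδ v))
        simpa using this
      · exact Set.mem_iInter₂.2 fun v _ => h v
    · rintro ⟨hA, hB⟩ v
      by_cases hv : v.asIdeal ∣ 𝔫
      · exact Set.mem_iInter₂.1 hB v hv
      · rw [idealClosure_eq57 𝔫 v hv]
        exact sub_mem (hA v hv) (hδ v)
  rw [hset]
  exact (h1.inter h3).preimage continuous_snd

theorem one_apply_eq57 (v : HeightOneSpectrum (𝓞 K)) (i j : Fin 2) :
    (1 : Matrix (Fin 2) (Fin 2) (v.adicCompletion K)) i j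
      = (((if i = j then 1 else 0 : ℤ)) : v.adicCompletion K) := by
  rw [Matrix.one_apply]
  split_ifs <;> simp

theorem inU0_iff57 (𝔫 : Ideal (𝓞 K)) (x : G K) :
    InU057 𝔫 x ↔ ∀ i j : Fin 2,
      (x : Matrix (Fin 2) (Fin 2) (Adl K)) i j ∈ adlNbhd57 𝔫 (if i = j then 1 else 0) ∧
      ((x⁻¹ : G K) : Matrix (Fin 2) (Fin 2) (Adl K)) i j ∈ adlNbhd57 𝔫 (if i = j then 1 else 0) := by
  constructor
  · intro h i j
    refine ⟨fun v => ?_, fun v => ?_⟩
    · have := (h v i j).1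
      rwa [Matrix.sub_apply, one_apply_eq57] at this
    · have := (h v i j).2
      rwa [Matrix.sub_apply, one_apply_eq57] at this
  · intro h v i j
    refine ⟨?_, ?_⟩
    · rw [Matrix.sub_apply, one_apply_eq57]
      exact (h i j).1 v
    · rw [Matrix.sub_apply, one_apply_eq57]
      exact (h i j).2 v

/-- `G_∞ × U(𝔫)_f` is open in `GL₂(𝔸_K)`. -/
theorem isOpen_inU057 (𝔫 : Ideal (𝓞 K)) (h𝔫 : 𝔫 ≠ ⊥) : IsOpen {x : G K | InU057 𝔫 x} := by
  have hset : {x : G K | InU057 𝔫 x} = ⋂ i : Fin 2, ⋂ j : Fin 2,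
      ((fun g : G K => (g : Matrix (Fin 2) (Fin 2) (Adl K)) i j) ⁻¹'
          adlNbhd57 𝔫 (if i = j then 1 else 0)) ∩
        ((fun g : G K => ((g⁻¹ : G K) : Matrix (Fin 2) (Fin 2) (Adl K)) i j) ⁻¹'
          adlNbhd57 𝔫 (if i = j then 1 else 0)) := by
    ext x
    rw [Set.mem_iInter]
    constructor
    · intro h i
      rw [Set.mem_iInter]
      exact fun j => (inU0_iff57 𝔫 x).1 h i j
    · intro h
      refine (inU0_iff57 𝔫 x).2 fun i j => ?_
      exact Set.mem_iInter.1 (h i) j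
  rw [hset]
  refine isOpen_iInter_of_finite fun i => isOpen_iInter_of_finite fun j => ?_
  exact ((isOpen_adlNbhd57 𝔫 h𝔫 _).preimage (continuous_entry793 i j)).inter
    ((isOpen_adlNbhd57 𝔫 h𝔫 _).preimage (continuous_entry_inv793 i j))

end Fermat.Agent.LT.T3.H57

end
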