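import Mathlib
import Fermat.Agent.LT.T3.H736.ASSpec
import Fermat.Agent.LT.T3.H57.ROpTop

/-!
# Row LT, tower T3, station T3.18a, leaf AS.5 `ROpC` (helper57, OFF-MAIN): local embeddings

* `infEmb57 : (InfinitePlace K → GL₂(ℂ)) →* GL₂(𝔸_K)` (`K` totally complex), continuous,
  with components `infGL_infEmb57`, `finGL_infEmb57`;
* `finEmb57 v₀ : GL₂(K_{v₀}) →* GL₂(𝔸_K)` with components;
* `LocU57`, `inU0_iff_loc57`, `outsideU_iff_loc57` : the conditions of `InU057`, `AS.OutsideU`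
  in terms of the local components;
* `inLevelGroup_of57` : `x ∈ G_∞ × U(𝔫)_f` implies `ι(π x)⁻¹ x ∈ U(𝔫)`.
-/

set_option autoImplicit false

open IsDedekindDomain NumberField Topology
open Fermat.Agent.LT.H556.A0
open Fermat.Agent.LT.T1.H724 Fermat.Agent.LT.T1.H793
open Fermat.Agent.LT.T3

noncomputable section

namespace Fermat.Agent.LT.T3.H57

variable {K : Type} [Field K] [NumberField K]

/-! ## Components -/

theorem finGL_val57 (v : HeightOneSpectrum (𝓞 K)) (g : G K) :
    ((AS.finGL K v g : GL (Fin 2) (v.adicCompletion K)) :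
      Matrix (Fin 2) (Fin 2) (v.adicCompletion K)) = finComp v g := rfl

theorem finGL_inv_val57 (v : HeightOneSpectrum (𝓞 K)) (g : G K) :
    (((AS.finGL K v g)⁻¹ : GL (Fin 2) (v.adicCompletion K)) :
      Matrix (Fin 2) (Fin 2) (v.adicCompletion K)) = finComp v g⁻¹ := by
  rw [← map_inv]; rfl

theorem infGL_val57 (w : InfinitePlace K) (g : G K) :
    ((AS.infGL K w g : GL (Fin 2) ℂ) : Matrix (Fin 2) (Fin 2) ℂ) = infComp w g := rfl

/-- The local condition `M ∈ U(𝔫)_v`. -/
def LocU57 (𝔫 : Ideal (𝓞 K)) (v : HeightOneSpectrum (𝓞 K))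
    (M : GL (Fin 2) (v.adicCompletion K)) : Prop :=
  ∀ i j : Fin 2,
    ((M : Matrix (Fin 2) (Fin 2) (v.adicCompletion K)) - 1) i j ∈ idealClosure 𝔫 v ∧
    (((M⁻¹ : GL (Fin 2) (v.adicCompletion K)) : Matrix (Fin 2) (Fin 2) (v.adicCompletion K)) - 1)
      i j ∈ idealClosure 𝔫 v

theorem inU0_iff_loc57 (𝔫 : Ideal (𝓞 K)) (x : G K) :
    InU057 𝔫 x ↔ ∀ v : HeightOneSpectrum (𝓞 K), LocU57 𝔫 v (AS.finGL K v x) := by
  constructor
  · intro h v i j
    rw [finGL_val57, finGL_inv_val57]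
    exact h v i j
  · intro h v i j
    have := h v i j
    rwa [finGL_val57, finGL_inv_val57] at this

theorem outsideU_iff_loc57 (𝔫 : Ideal (𝓞 K)) (v₀ : HeightOneSpectrum (𝓞 K)) (x : G K) :
    AS.OutsideU K 𝔫 v₀ x ↔
      ∀ v : HeightOneSpectrum (𝓞 K), v ≠ v₀ → LocU57 𝔫 v (AS.finGL K v x) := by
  constructor
  · intro h v hv i j
    rw [finGL_val57, finGL_inv_val57]
    exact h v hv i j
  · intro h v hv i j
    have := h v hv i j
    rwa [finGL_val57, finGL_inv_val57] at this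

theorem locU_one57 (𝔫 : Ideal (𝓞 K)) (v : HeightOneSpectrum (𝓞 K)) :
    LocU57 𝔫 v (1 : GL (Fin 2) (v.adicCompletion K)) := by
  intro i j
  simp only [inv_one, Units.val_one, sub_self, Matrix.zero_apply, and_self]
  exact zero_mem_idealClosure57 𝔫 v

/-- For `v ∤ 𝔫` the local condition is integrality. -/
theorem locU_iff_isIntGL57 (𝔫 : Ideal (𝓞 K)) (v : HeightOneSpectrum (𝓞 K))
    (hv : ¬ v.asIdeal ∣ 𝔫) (M : GL (Fin 2) (v.adicCompletion K)) :
    LocU57 𝔫 v M ↔ AS.IsIntGL v M := by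
  have h1 : ∀ i j : Fin 2, (1 : Matrix (Fin 2) (Fin 2) (v.adicCompletion K)) i j
      ∈ v.adicCompletionIntegers K := by
    intro i j
    rw [one_apply_eq57]
    exact intCast_mem _ _
  unfold LocU57 AS.IsIntGL
  rw [idealClosure_eq57 𝔫 v hv]
  refine forall_congr' fun i => forall_congr' fun j => ?_
  simp only [Matrix.sub_apply, SetLike.mem_coe]
  constructor
  · rintro ⟨ha, hb⟩
    exact ⟨by simpa using add_mem ha (h1 i j), by simpa using add_mem hb (h1 i j)⟩
  · rintro ⟨ha, hb⟩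
    exact ⟨sub_mem ha (h1 i j), sub_mem hb (h1 i j)⟩

/-- In general the local condition implies integrality. -/
theorem isIntGL_of_locU57 (𝔫 : Ideal (𝓞 K)) (v : HeightOneSpectrum (𝓞 K))
    (M : GL (Fin 2) (v.adicCompletion K)) (h : LocU57 𝔫 v M) : AS.IsIntGL v M := by
  have h1 : ∀ i j : Fin 2, (1 : Matrix (Fin 2) (Fin 2) (v.adicCompletion K)) i j
      ∈ v.adicCompletionIntegers K := by
    intro i j
    rw [one_apply_eq57]
    exact intCast_mem _ _
  intro i j
  have ha := idealClosure_subset57 𝔫 v (h i j).1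
  have hb := idealClosure_subset57 𝔫 v (h i j).2
  simp only [Matrix.sub_apply, SetLike.mem_coe] at ha hb
  exact ⟨by simpa using add_mem ha (h1 i j), by simpa using add_mem hb (h1 i j)⟩

/-! ## The embedding of the infinite places -/

section Inf

variable (hK : ∀ w : InfinitePlace K, w.IsComplex)

set_option linter.unusedSectionVars false

/-- The inverse of the embedding `K_w → ℂ` at a complex place. -/
def cInv57 (w : InfinitePlace K) : ℂ →+* w.Completion :=
  ((InfinitePlace.Completion.ringEquivComplexOfIsComplex (hK w)).symm : ℂ ≃+* w.Completion)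

theorem ext_cInv57 (w : InfinitePlace K) (z : ℂ) :
    InfinitePlace.Completion.extensionEmbedding w (cInv57 hK w z) = z :=
  (InfinitePlace.Completion.ringEquivComplexOfIsComplex (hK w)).apply_symm_apply z

theorem continuous_cInv57 (w : InfinitePlace K) : Continuous (cInv57 hK w) :=
  (InfinitePlace.Completion.isometryEquivComplexOfIsComplex (hK w)).symm.continuous

/-- The adelic matrix with components `t w` at the infinite places and `1` at the finite
places. -/
def infMat57 (t : InfinitePlace K → Matrix (Fin 2) (Fin 2) ℂ) : Matrix (Fin 2) (Fin 2) (Adl K) :=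
  fun i j => (fun w => cInv57 hK w (t w i j), ((1 : Matrix (Fin 2) (Fin 2) (Adl K)) i j).2)

theorem infMat_map_inf57 (t : InfinitePlace K → Matrix (Fin 2) (Fin 2) ℂ) (w : InfinitePlace K) :
    (infMat57 hK t).map (evInf724 w) = (t w).map (cInv57 hK w) := by
  ext i j : 1
  rfl

theorem infMat_map_fin57 (t : InfinitePlace K → Matrix (Fin 2) (Fin 2) ℂ)
    (v : HeightOneSpectrum (𝓞 K)) : (infMat57 hK t).map (evFin724 v) = 1 := by
  ext i j : 1
  rw [Matrix.map_apply]
  change evFin724 v ((1 : Matrix (Fin 2) (Fin 2) (Adl K)) i j) = _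
  rw [← Matrix.map_apply (f := evFin724 v), Matrix.map_one _ (map_zero _) (map_one _)]

theorem infMat_mul57 (s t : InfinitePlace K → Matrix (Fin 2) (Fin 2) ℂ) :
    infMat57 hK s * infMat57 hK t = infMat57 hK (fun w => s w * t w) := by
  refine mat_ext724 (fun w => ?_) (fun v => ?_)
  · rw [Matrix.map_mul, infMat_map_inf57, infMat_map_inf57, infMat_map_inf57, Matrix.map_mul]
  · rw [Matrix.map_mul, infMat_map_fin57, infMat_map_fin57, infMat_map_fin57, mul_one]

theorem infMat_one57 :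
    infMat57 hK (fun _ => (1 : Matrix (Fin 2) (Fin 2) ℂ)) = 1 := by
  refine mat_ext724 (fun w => ?_) (fun v => ?_)
  · rw [infMat_map_inf57, Matrix.map_one _ (map_zero _) (map_one _),
      Matrix.map_one _ (map_zero _) (map_one _)]
  · rw [infMat_map_fin57, Matrix.map_one _ (map_zero _) (map_one _)]

/-- The embedding `∏_w GL₂(ℂ) → GL₂(𝔸_K)`. -/
def infEmb57 : (InfinitePlace K → GL (Fin 2) ℂ) →* G K where
  toFun t :=
    ⟨infMat57 hK (fun w => ((t w : GL (Fin 2) ℂ) : Matrix (Fin 2) (Fin 2) ℂ)),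
      infMat57 hK (fun w => (((t w)⁻¹ : GL (Fin 2) ℂ) : Matrix (Fin 2) (Fin 2) ℂ)),
      by
        rw [infMat_mul57]
        simp only [← Units.val_mul, mul_inv_cancel, Units.val_one]
        exact infMat_one57 hK,
      by
        rw [infMat_mul57]
        simp only [← Units.val_mul, inv_mul_cancel, Units.val_one]
        exact infMat_one57 hK⟩
  map_one' := by
    apply Units.ext
    exact infMat_one57 hK
  map_mul' s t := by
    apply Units.ext
    change infMat57 hK _ = infMat57 hK _ * infMat57 hK _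
    rw [infMat_mul57]
    rfl

theorem infEmb_val57 (t : InfinitePlace K → GL (Fin 2) ℂ) :
    ((infEmb57 hK t : G K) : Matrix (Fin 2) (Fin 2) (Adl K))
      = infMat57 hK (fun w => ((t w : GL (Fin 2) ℂ) : Matrix (Fin 2) (Fin 2) ℂ)) := rfl

theorem infGL_infEmb57 (t : InfinitePlace K → GL (Fin 2) ℂ) (w : InfinitePlace K) :
    AS.infGL K w (infEmb57 hK t) = t w := by
  apply Units.ext
  rw [infGL_val57]
  ext i j
  exact ext_cInv57 hK w _

theorem finGL_infEmb57 (t : InfinitePlace K → GL (Fin 2) ℂ) (v : HeightOneSpectrum (𝓞 K)) :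
    AS.finGL K v (infEmb57 hK t) = 1 := by
  apply Units.ext
  rw [finGL_val57, Units.val_one]
  exact infMat_map_fin57 hK (fun w => ((t w : GL (Fin 2) ℂ) : Matrix (Fin 2) (Fin 2) ℂ)) v

theorem continuous_infMat57 :
    Continuous (fun t : InfinitePlace K → GL (Fin 2) ℂ =>
      infMat57 hK (fun w => ((t w : GL (Fin 2) ℂ) : Matrix (Fin 2) (Fin 2) ℂ))) := by
  refine continuous_matrix fun i j => ?_
  refine Continuous.prodMk (continuous_pi fun w => ?_) continuous_const
  refine (continuous_cInv57 hK w).comp ?_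
  exact (Units.continuous_val.comp (continuous_apply w)).matrix_elem i j

theorem continuous_infEmb57 : Continuous (infEmb57 hK) := by
  rw [Units.continuous_iff]
  refine ⟨continuous_infMat57 hK, ?_⟩
  have h : Continuous (fun t : InfinitePlace K → GL (Fin 2) ℂ => t⁻¹) := continuous_inv
  exact (continuous_infMat57 hK).comp h

/-- The component at `w' ≠ w` of an element supported at `w`. -/
theorem trivAtInf_infEmb57 [DecidableEq (InfinitePlace K)] (w : InfinitePlace K)
    (s : GL (Fin 2) ℂ) (w' : InfinitePlace K) (hw : w' ≠ w) :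
    TrivAtInf w' (infEmb57 hK (Pi.mulSingle w s)) := by
  intro i j
  rw [infEmb_val57]
  change cInv57 hK w' (((Pi.mulSingle w s : InfinitePlace K → GL (Fin 2) ℂ) w' :
    GL (Fin 2) ℂ).1 i j) = _
  rw [Pi.mulSingle_eq_of_ne hw, Units.val_one, Matrix.one_apply, Matrix.one_apply]
  split_ifs <;> simp

theorem trivAtFin_infEmb57 (t : InfinitePlace K → GL (Fin 2) ℂ) (v : HeightOneSpectrum (𝓞 K)) :
    TrivAtFin v (infEmb57 hK t) :=
  infMat_map_fin57 hK (fun w => ((t w : GL (Fin 2) ℂ) : Matrix (Fin 2) (Fin 2) ℂ)) v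

theorem isLocalAtInf_infEmb57 [DecidableEq (InfinitePlace K)] (w : InfinitePlace K)
    (s : GL (Fin 2) ℂ) : IsLocalAtInf w (infEmb57 hK (Pi.mulSingle w s)) :=
  ⟨fun w' hw => trivAtInf_infEmb57 hK w s w' hw, fun v => trivAtFin_infEmb57 hK _ v⟩

theorem infComp_infEmb_single57 [DecidableEq (InfinitePlace K)] (w : InfinitePlace K)
    (s : GL (Fin 2) ℂ) :
    infComp w (infEmb57 hK (Pi.mulSingle w s)) = (s : Matrix (Fin 2) (Fin 2) ℂ) := by
  rw [← infGL_val57, infGL_infEmb57, Pi.mulSingle_eq_same]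

/-- `x ∈ G_∞ × U(𝔫)_f` differs from its infinite part by an element of `U(𝔫)`. -/
theorem inLevelGroup_of57 (𝔫 : Ideal (𝓞 K)) (x : G K) (hx : InU057 𝔫 x) :
    InLevelGroup 𝔫 ((infEmb57 hK (fun w => AS.infGL K w x))⁻¹ * x) := by
  set u : G K := (infEmb57 hK (fun w => AS.infGL K w x))⁻¹ * x with hu
  have hinf : ∀ w, AS.infGL K w u = 1 := by
    intro w
    rw [hu, map_mul, map_inv, infGL_infEmb57, inv_mul_cancel]
  have hfin : ∀ v, AS.finGL K v u = AS.finGL K v x := by
    intro v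
    rw [hu, map_mul, map_inv, finGL_infEmb57, inv_one, one_mul]
  refine ⟨fun w i j => ?_, ?_⟩
  · have h1 : infComp w u i j = (1 : Matrix (Fin 2) (Fin 2) ℂ) i j := by
      rw [← infGL_val57, hinf w, Units.val_one]
    have h2 : InfinitePlace.Completion.extensionEmbedding w
        ((1 : Matrix (Fin 2) (Fin 2) w.Completion) i j) = (1 : Matrix (Fin 2) (Fin 2) ℂ) i j := by
      rw [Matrix.one_apply, Matrix.one_apply]
      split_ifs <;> simp
    exact (InfinitePlace.Completion.extensionEmbedding w).injective (h1.trans h2.symm)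
  · have := (inU0_iff_loc57 𝔫 x).1 hx
    have h3 : InU057 𝔫 u := (inU0_iff_loc57 𝔫 u).2 fun v => by rw [hfin v]; exact this v
    exact h3

end Inf

/-! ## The embedding of a finite place -/

theorem val_mul_inv57 {v₀ : HeightOneSpectrum (𝓞 K)} (h : GL (Fin 2) (v₀.adicCompletion K)) :
    (h : Matrix (Fin 2) (Fin 2) (v₀.adicCompletion K)) *
      ((h⁻¹ : GL (Fin 2) (v₀.adicCompletion K)) : Matrix (Fin 2) (Fin 2) (v₀.adicCompletion K))
      = 1 := by
  rw [← Units.val_mul, mul_inv_cancel, Units.val_one]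

theorem val_inv_mul57 {v₀ : HeightOneSpectrum (𝓞 K)} (h : GL (Fin 2) (v₀.adicCompletion K)) :
    ((h⁻¹ : GL (Fin 2) (v₀.adicCompletion K)) : Matrix (Fin 2) (Fin 2) (v₀.adicCompletion K)) *
      (h : Matrix (Fin 2) (Fin 2) (v₀.adicCompletion K)) = 1 := by
  rw [← Units.val_mul, inv_mul_cancel, Units.val_one]

/-- The embedding `GL₂(K_{v₀}) → GL₂(𝔸_K)`. -/
def finEmb57 (v₀ : HeightOneSpectrum (𝓞 K)) : GL (Fin 2) (v₀.adicCompletion K) →* G K where
  toFun h := locGL724 v₀ (h : Matrix (Fin 2) (Fin 2) (v₀.adicCompletion K))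
    ((h⁻¹ : GL (Fin 2) (v₀.adicCompletion K)) : Matrix (Fin 2) (Fin 2) (v₀.adicCompletion K))
    (val_mul_inv57 h) (val_inv_mul57 h)
  map_one' := by
    apply Units.ext
    exact locMat_one724 v₀
  map_mul' a b := by
    apply Units.ext
    exact (locMat_mul724 v₀ _ _).symm

theorem isLocalAtFin_finEmb57 (v₀ : HeightOneSpectrum (𝓞 K))
    (h : GL (Fin 2) (v₀.adicCompletion K)) : IsLocalAtFin v₀ (finEmb57 v₀ h) :=
  isLocalAtFin_locGL724 v₀ _ _ (val_mul_inv57 h) (val_inv_mul57 h)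

theorem finComp_finEmb57 (v₀ : HeightOneSpectrum (𝓞 K))
    (h : GL (Fin 2) (v₀.adicCompletion K)) :
    finComp v₀ (finEmb57 v₀ h) = (h : Matrix (Fin 2) (Fin 2) (v₀.adicCompletion K)) :=
  finComp_locGL724 v₀ _ _ (val_mul_inv57 h) (val_inv_mul57 h)

theorem finGL_finEmb57 (v₀ : HeightOneSpectrum (𝓞 K))
    (h : GL (Fin 2) (v₀.adicCompletion K)) : AS.finGL K v₀ (finEmb57 v₀ h) = h := by
  apply Units.ext
  rw [finGL_val57]
  exact finComp_finEmb57 v₀ h

theorem finGL_finEmb_ne57 (v₀ : HeightOneSpectrum (𝓞 K))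
    (h : GL (Fin 2) (v₀.adicCompletion K)) (v : HeightOneSpectrum (𝓞 K)) (hv : v ≠ v₀) :
    AS.finGL K v (finEmb57 v₀ h) = 1 := by
  apply Units.ext
  rw [finGL_val57]
  exact (isLocalAtFin_finEmb57 v₀ h).2 v hv

theorem infGL_finEmb57 (v₀ : HeightOneSpectrum (𝓞 K))
    (h : GL (Fin 2) (v₀.adicCompletion K)) (w : InfinitePlace K) :
    AS.infGL K w (finEmb57 v₀ h) = 1 := by
  apply Units.ext
  rw [infGL_val57]
  ext i j
  have := (isLocalAtFin_finEmb57 v₀ h).1 w i j
  change InfinitePlace.Completion.extensionEmbedding w _ = _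
  rw [this, Units.val_one, Matrix.one_apply, Matrix.one_apply]
  split_ifs <;> simp

theorem finEmb_injective57 (v₀ : HeightOneSpectrum (𝓞 K)) :
    Function.Injective (finEmb57 (K := K) v₀) := by
  intro a b hab
  have := congrArg (AS.finGL K v₀) hab
  rwa [finGL_finEmb57, finGL_finEmb57] at this

/-- `ι₀(k) ∈ U(𝔫)` for `k ∈ GL₂(𝒪_{v₀})`, `v₀ ∤ 𝔫`. -/
theorem inLevelGroup_finEmb57 (𝔫 : Ideal (𝓞 K)) (v₀ : HeightOneSpectrum (𝓞 K))
    (hv₀ : ¬ v₀.asIdeal ∣ 𝔫) (k : GL (Fin 2) (v₀.adicCompletion K)) (hk : AS.IsIntGL v₀ k) :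
    InLevelGroup 𝔫 (finEmb57 v₀ k) := by
  refine ⟨(isLocalAtFin_finEmb57 v₀ k).1, ?_⟩
  have : InU057 𝔫 (finEmb57 v₀ k) := by
    rw [inU0_iff_loc57]
    intro v
    by_cases hv : v = v₀
    · subst hv
      rw [finGL_finEmb57, locU_iff_isIntGL57 𝔫 v hv₀]
      exact hk
    · rw [finGL_finEmb_ne57 v₀ k v hv]
      exact locU_one57 𝔫 v
  exact this

end Fermat.Agent.LT.T3.H57

end
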