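import Mathlib
import Fermat.Agent.LT.T3.H736.ASSpec
import Fermat.Agent.LT.T3.H57.ROpEmb

/-!
# Row LT, tower T3, station T3.18a, leaf AS.5 `ROpC` (helper57, OFF-MAIN): local transfers

* `isLocSph0_of57` : `s ↦ φ(y ι_w(s))` is `AS.IsLocSph0` for `φ` of `T3.IsSph0Level`;
* `isLocEigen_of57` : `y ↦ φ(g ι₀(y))` is `AS.IsLocEigen` for `φ` Hecke-eigen at `v₀ ∤ 𝔫`;
* `pureFn_eq_sum57` : `pureFn = ∑_{h ∈ R} f₀(h) L_{ι₀ h} f¹`.
-/

set_option autoImplicit false

open IsDedekindDomain NumberField Topology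
open Fermat.Agent.LT.H556.A0
open Fermat.Agent.LT.T1.H724 Fermat.Agent.LT.T1.H793
open Fermat.Agent.LT.T3

noncomputable section

namespace Fermat.Agent.LT.T3.H57

variable {K : Type} [Field K] [NumberField K]

/-! ## The infinite places -/

section Inf

variable (hK : ∀ w : InfinitePlace K, w.IsComplex)

open Classical in
/-- The embedding of `GL₂(ℂ)` at the place `w`. -/
def infEmbAt57 (w : InfinitePlace K) : GL (Fin 2) ℂ →* G K :=
  (infEmb57 hK).comp (MonoidHom.mulSingle (fun _ : InfinitePlace K => GL (Fin 2) ℂ) w)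

open Classical in
theorem infEmbAt_apply57 (w : InfinitePlace K) (s : GL (Fin 2) ℂ) :
    infEmbAt57 hK w s = infEmb57 hK (Pi.mulSingle w s) := rfl

theorem isLocalAtInf_infEmbAt57 (w : InfinitePlace K) (s : GL (Fin 2) ℂ) :
    IsLocalAtInf w (infEmbAt57 hK w s) := by
  classical
  exact isLocalAtInf_infEmb57 hK w s

theorem infComp_infEmbAt57 (w : InfinitePlace K) (s : GL (Fin 2) ℂ) :
    infComp w (infEmbAt57 hK w s) = (s : Matrix (Fin 2) (Fin 2) ℂ) := by
  classical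
  exact infComp_infEmb_single57 hK w s

theorem continuous_infEmbAt57 (w : InfinitePlace K) : Continuous (infEmbAt57 hK w) := by
  classical
  have h : Continuous (fun s : GL (Fin 2) ℂ =>
      (Pi.mulSingle w s : InfinitePlace K → GL (Fin 2) ℂ)) := by
    refine continuous_pi fun w' => ?_
    by_cases hw : w' = w
    · subst hw
      simp only [Pi.mulSingle_eq_same]
      exact continuous_id
    · simp only [Pi.mulSingle_eq_of_ne hw]
      exact continuous_const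
  exact (continuous_infEmb57 hK).comp h

theorem isLocSph0_of57 (𝔫 : Ideal (𝓞 K)) (φ : G K → ℂ) (hφ : IsSph0Level K 𝔫 φ)
    (y : G K) (w : InfinitePlace K) :
    AS.IsLocSph0 (fun s : GL (Fin 2) ℂ => φ (y * infEmbAt57 hK w s)) := by
  refine ⟨?_, ?_, ?_, ?_⟩
  · exact hφ.cont.comp (continuous_const.mul (continuous_infEmbAt57 hK w))
  · intro k y' hk
    rw [map_mul, ← mul_assoc]
    refine hφ.arch_compact w _ ⟨isLocalAtInf_infEmbAt57 hK w k, ?_, ?_⟩ _
    · rw [infComp_infEmbAt57]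
      exact hk
    · intro hr
      exact absurd (hK w) (InfinitePlace.not_isComplex_iff_isReal.2 hr)
  · intro z r hr hz y'
    rw [map_mul, ← mul_assoc]
    refine hφ.arch_scalar w _ ⟨isLocalAtInf_infEmbAt57 hK w z, r, hr, ?_⟩ _
    rw [infComp_infEmbAt57]
    exact hz
  · intro d hd Y hY y'
    have h := hφ.mean_complex w (hK w) d hd (fun α β => infEmbAt57 hK w (Y α β))
      (fun α β => ⟨isLocalAtInf_infEmbAt57 hK w _, by rw [infComp_infEmbAt57]; exact hY α β⟩)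
      (y * infEmbAt57 hK w y')
    simp only [map_mul, ← mul_assoc]
    exact h

end Inf

/-! ## The place `v₀` -/

theorem isIntGL_one57 (v : HeightOneSpectrum (𝓞 K)) :
    AS.IsIntGL v (1 : GL (Fin 2) (v.adicCompletion K)) := by
  intro i j
  simp only [inv_one, Units.val_one, and_self]
  rw [one_apply_eq57]
  exact intCast_mem _ _

theorem isIntGL_inv57 (v : HeightOneSpectrum (𝓞 K)) {a : GL (Fin 2) (v.adicCompletion K)}
    (ha : AS.IsIntGL v a) : AS.IsIntGL v a⁻¹ := by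
  intro i j
  rw [inv_inv]
  exact ⟨(ha i j).2, (ha i j).1⟩

theorem isIntGL_mul57 (v : HeightOneSpectrum (𝓞 K)) {a b : GL (Fin 2) (v.adicCompletion K)}
    (ha : AS.IsIntGL v a) (hb : AS.IsIntGL v b) : AS.IsIntGL v (a * b) := by
  intro i j
  rw [mul_inv_rev, Units.val_mul, Units.val_mul, Matrix.mul_apply, Matrix.mul_apply]
  exact ⟨sum_mem fun l _ => mul_mem (ha i l).1 (hb l j).1,
    sum_mem fun l _ => mul_mem (hb i l).2 (ha l j).2⟩

theorem isLocEigen_of57 (𝔫 : Ideal (𝓞 K)) (v₀ : HeightOneSpectrum (𝓞 K))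
    (hv₀ : ¬ v₀.asIdeal ∣ 𝔫) (φ : G K → ℂ) (hφ : IsSph0Level K 𝔫 φ) (a b : ℂ)
    (he : IsHeckeEigenAt φ v₀ a b) (g : G K) :
    AS.IsLocEigen v₀ (fun y : GL (Fin 2) (v₀.adicCompletion K) => φ (g * finEmb57 v₀ y)) a b := by
  classical
  refine ⟨?_, ?_, ?_⟩
  · intro k y hk
    rw [map_mul, ← mul_assoc]
    exact hφ.level_inv _ (inLevelGroup_finEmb57 𝔫 v₀ hv₀ k hk) _
  · intro H hH y
    have hsys : IsHeckeCosetSystem v₀ (H.image (finEmb57 (K := K) v₀)) := by
      refine ⟨?_, ?_, ?_⟩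
      · rw [Finset.card_image_of_injective _ (finEmb_injective57 v₀)]
        exact hH.1
      · intro h' hh'
        obtain ⟨h, hh, rfl⟩ := Finset.mem_image.1 hh'
        refine ⟨isLocalAtFin_finEmb57 v₀ h, ?_, ?_⟩
        · intro i j
          rw [finComp_finEmb57]
          exact (hH.2.1 h hh).1 i j
        · rw [finComp_finEmb57]
          exact (hH.2.1 h hh).2
      · intro h₁ hh₁ h₂ hh₂ hne hint
        obtain ⟨a₁, ha₁, rfl⟩ := Finset.mem_image.1 hh₁
        obtain ⟨a₂, ha₂, rfl⟩ := Finset.mem_image.1 hh₂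
        have hne' : a₁ ≠ a₂ := fun h => hne (by rw [h])
        refine hH.2.2 a₁ ha₁ a₂ ha₂ hne' fun i j => ?_
        have := hint i j
        rwa [← map_inv, ← map_mul, finComp_finEmb57] at this
    have := he.1 _ hsys (g * finEmb57 v₀ y)
    rw [Finset.sum_image (fun x _ y _ hxy => finEmb_injective57 v₀ hxy)] at this
    rw [← this]
    refine Finset.sum_congr rfl fun h _ => ?_
    rw [map_mul, ← mul_assoc]
  · intro z c hc hz y
    rw [map_mul, ← mul_assoc]
    refine he.2 _ ⟨isLocalAtFin_finEmb57 v₀ z, c, hc, ?_⟩ _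
    rw [finComp_finEmb57]
    exact hz

/-! ## The decomposition of the pure tensor -/

open Classical in
/-- The pure tensor with `1_{GL₂(𝒪_{v₀})}` at `v₀`. -/
def pureOne57 (𝔫 : Ideal (𝓞 K)) (F : InfinitePlace K → GL (Fin 2) ℂ → ℂ) (x : G K) : ℂ :=
  if InU057 𝔫 x then ∏ w : InfinitePlace K, F w (AS.infGL K w x) else 0

theorem inU0_finEmb_inv_mul_iff57 (𝔫 : Ideal (𝓞 K)) (v₀ : HeightOneSpectrum (𝓞 K))
    (hv₀ : ¬ v₀.asIdeal ∣ 𝔫) (h : GL (Fin 2) (v₀.adicCompletion K)) (x : G K) :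
    InU057 𝔫 ((finEmb57 v₀ h)⁻¹ * x) ↔
      AS.OutsideU K 𝔫 v₀ x ∧ AS.IsIntGL v₀ (h⁻¹ * AS.finGL K v₀ x) := by
  rw [inU0_iff_loc57, outsideU_iff_loc57]
  have hne : ∀ v, v ≠ v₀ → AS.finGL K v ((finEmb57 v₀ h)⁻¹ * x) = AS.finGL K v x := by
    intro v hv
    rw [map_mul, map_inv, finGL_finEmb_ne57 v₀ h v hv, inv_one, one_mul]
  have heq : AS.finGL K v₀ ((finEmb57 v₀ h)⁻¹ * x) = h⁻¹ * AS.finGL K v₀ x := by
    rw [map_mul, map_inv, finGL_finEmb57]
  constructor
  · intro hall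
    refine ⟨fun v hv => ?_, ?_⟩
    · rw [← hne v hv]
      exact hall v
    · rw [← heq, ← locU_iff_isIntGL57 𝔫 v₀ hv₀]
      exact hall v₀
  · rintro ⟨hout, hint⟩ v
    by_cases hv : v = v₀
    · subst hv
      rw [heq, locU_iff_isIntGL57 𝔫 v hv₀]
      exact hint
    · rw [hne v hv]
      exact hout v hv

/-- `pureFn = ∑_{h ∈ R} f₀(h) L_{ι₀(h)} f¹`. -/
theorem pureFn_eq_sum57 (𝔫 : Ideal (𝓞 K)) (v₀ : HeightOneSpectrum (𝓞 K))
    (hv₀ : ¬ v₀.asIdeal ∣ 𝔫) (f₀ : GL (Fin 2) (v₀.adicCompletion K) → ℂ)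
    (F : InfinitePlace K → GL (Fin 2) ℂ → ℂ) (hf₀ : AS.IsBiIntInv v₀ f₀)
    (R : Finset (GL (Fin 2) (v₀.adicCompletion K))) (hR : AS.IsRepSys v₀ f₀ R) (x : G K) :
    AS.pureFn K 𝔫 v₀ f₀ F x = ∑ h ∈ R, f₀ h * pureOne57 𝔫 F ((finEmb57 v₀ h)⁻¹ * x) := by
  classical
  have hinf : ∀ (h : GL (Fin 2) (v₀.adicCompletion K)) (w : InfinitePlace K),
      AS.infGL K w ((finEmb57 v₀ h)⁻¹ * x) = AS.infGL K w x := by
    intro h w
    rw [map_mul, map_inv, infGL_finEmb57, inv_one, one_mul]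
  have hterm : ∀ h : GL (Fin 2) (v₀.adicCompletion K),
      pureOne57 𝔫 F ((finEmb57 v₀ h)⁻¹ * x)
        = if AS.OutsideU K 𝔫 v₀ x ∧ AS.IsIntGL v₀ (h⁻¹ * AS.finGL K v₀ x)
          then ∏ w : InfinitePlace K, F w (AS.infGL K w x) else 0 := by
    intro h
    unfold pureOne57
    simp only [inU0_finEmb_inv_mul_iff57 𝔫 v₀ hv₀, hinf]
  simp only [hterm]
  unfold AS.pureFn
  by_cases hout : AS.OutsideU K 𝔫 v₀ x
  · simp only [hout, true_and, if_true]
    have hval : ∀ h : GL (Fin 2) (v₀.adicCompletion K),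
        AS.IsIntGL v₀ (h⁻¹ * AS.finGL K v₀ x) → f₀ h = f₀ (AS.finGL K v₀ x) := by
      intro h hint
      have := hf₀ 1 (h⁻¹ * AS.finGL K v₀ x) h (isIntGL_one57 v₀) hint
      rw [one_mul, mul_inv_cancel_left] at this
      exact this.symm
    by_cases h0 : f₀ (AS.finGL K v₀ x) = 0
    · rw [h0, zero_mul]
      symm
      refine Finset.sum_eq_zero fun h _ => ?_
      split_ifs with hint
      · rw [hval h hint, h0, zero_mul]
      · rw [mul_zero]
    · obtain ⟨h₀, hh₀, hint₀⟩ := hR.2 _ h0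
      rw [Finset.sum_eq_single h₀]
      · rw [if_pos hint₀, hval h₀ hint₀]
      · intro h hh hne
        rw [if_neg, mul_zero]
        intro hint
        apply hne
        refine hR.1 h hh h₀ hh₀ ?_
        have := isIntGL_mul57 v₀ hint (isIntGL_inv57 v₀ hint₀)
        rwa [mul_inv_rev, inv_inv, mul_assoc, mul_inv_cancel_left] at this
      · intro hh
        exact absurd hh₀ hh
  · simp only [hout, false_and, if_false, mul_zero, Finset.sum_const_zero]

end Fermat.Agent.LT.T3.H57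

end
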