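import Mathlib
import Fermat.Agent.LT.T3.H736.ASSpec
import Fermat.Agent.LT.T3.H57.ROpHaar
import Fermat.Agent.LT.T3.H57.ROpLoc

/-!
# Row LT, tower T3, station T3.18a, leaf AS.5 (helper57, OFF-MAIN): `AS.ROpC K`, unconditional

`rOpC57 (K) : AS.ROpC K` = the frozen Prop of `LT/T3/H736/ASSpec.lean` (helper736@a78c5beca,
sha256 a661c778), VERBATIM.

Route (no product decomposition of `GL₂(𝔸_K)`, no Haar measure on a subgroup):
`U₀ = G_∞ × U(𝔫)_f` is open (`isOpen_inU057`), `π = (infGL w)_w : GL₂(𝔸_K) → ∏_w GL₂(ℂ)` has the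
section `ι` (`infEmb57`), `U₀ ∩ π⁻¹ C ⊆ ι(C) K⁰` is relatively compact (`K⁰` compact: helper793),
hence the image of `μ|_{U₀}` under `π` is a Haar measure `= κ₁ ∏_w μ_ℂ` (`pushforward_haar57`);
`φ(y x) = φ(y ι(π x))` on `U₀`; the infinite places one at a time (`integral_pi_eigen57`,
`AS.ActsBy`); the place `v₀` by `pureFn_eq_sum57` and `AS.HasSatakeEigen`.
-/

set_option autoImplicit false
set_option linter.style.haveILetI false
set_option linter.unusedSectionVars false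

open IsDedekindDomain NumberField Topology MeasureTheory
open Fermat.Agent.LT.H556.A0
open Fermat.Agent.LT.T1 Fermat.Agent.LT.T1.H724 Fermat.Agent.LT.T1.H793
open Fermat.Agent.LT.T3
open scoped ENNReal

noncomputable section

namespace Fermat.Agent.LT.T3.H57

variable {K : Type} [Field K] [NumberField K]

/-! ## The projection to the infinite places and its section -/

theorem continuous_infGL57 (w : InfinitePlace K) : Continuous (AS.infGL K w) := by
  rw [Units.continuous_iff]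
  refine ⟨continuous_infComp793 w, ?_⟩
  have h : Continuous (fun g : G K => infComp w g⁻¹) :=
    (continuous_infComp793 w).comp continuous_inv
  refine h.congr fun g => ?_
  change infComp w g⁻¹ = (((AS.infGL K w g)⁻¹ : GL (Fin 2) ℂ) : Matrix (Fin 2) (Fin 2) ℂ)
  rw [← map_inv]
  rfl

/-- The projection `GL₂(𝔸_K) → GL₂(ℂ)ⁿ`. -/
def piInf57 {n : ℕ} (e : InfinitePlace K ≃ Fin n) : G K →* (Fin n → GL (Fin 2) ℂ) :=
  MonoidHom.pi fun i => AS.infGL K (e.symm i)

theorem piInf_apply57 {n : ℕ} (e : InfinitePlace K ≃ Fin n) (x : G K) (i : Fin n) :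
    piInf57 e x i = AS.infGL K (e.symm i) x := rfl

theorem continuous_piInf57 {n : ℕ} (e : InfinitePlace K ≃ Fin n) : Continuous (piInf57 e) :=
  continuous_pi fun i => continuous_infGL57 (e.symm i)

section Inf

variable (hK : ∀ w : InfinitePlace K, w.IsComplex)

/-- The section `GL₂(ℂ)ⁿ → GL₂(𝔸_K)`. -/
def embFin57 {n : ℕ} (e : InfinitePlace K ≃ Fin n) : (Fin n → GL (Fin 2) ℂ) →* G K where
  toFun t := infEmb57 hK (fun w => t (e w))
  map_one' := (infEmb57 hK).map_one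
  map_mul' s t := (infEmb57 hK).map_mul (fun w => s (e w)) (fun w => t (e w))

theorem embFin_apply57 {n : ℕ} (e : InfinitePlace K ≃ Fin n) (t : Fin n → GL (Fin 2) ℂ) :
    embFin57 hK e t = infEmb57 hK (fun w => t (e w)) := rfl

theorem continuous_embFin57 {n : ℕ} (e : InfinitePlace K ≃ Fin n) :
    Continuous (embFin57 hK e) :=
  (continuous_infEmb57 hK).comp (continuous_pi fun w => continuous_apply (e w))

theorem piInf_embFin57 {n : ℕ} (e : InfinitePlace K ≃ Fin n) (t : Fin n → GL (Fin 2) ℂ) :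
    piInf57 e (embFin57 hK e t) = t := by
  funext i
  rw [piInf_apply57, embFin_apply57, infGL_infEmb57, Equiv.apply_symm_apply]

theorem embFin_piInf57 {n : ℕ} (e : InfinitePlace K ≃ Fin n) (x : G K) :
    embFin57 hK e (piInf57 e x) = infEmb57 hK (fun w => AS.infGL K w x) := by
  rw [embFin_apply57]
  congr 1
  funext w
  rw [piInf_apply57, Equiv.symm_apply_apply]

theorem finGL_embFin57 {n : ℕ} (e : InfinitePlace K ≃ Fin n) (t : Fin n → GL (Fin 2) ℂ)
    (v : HeightOneSpectrum (𝓞 K)) : AS.finGL K v (embFin57 hK e t) = 1 :=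
  finGL_infEmb57 hK _ v

theorem embFin_mulSingle57 {n : ℕ} (e : InfinitePlace K ≃ Fin n) (i : Fin n)
    (s : GL (Fin 2) ℂ) :
    embFin57 hK e (Pi.mulSingle i s) = infEmbAt57 hK (e.symm i) s := by
  classical
  rw [embFin_apply57, infEmbAt_apply57]
  congr 1
  funext w
  by_cases hw : w = e.symm i
  · subst hw
    simp
  · have h2 : e w ≠ i := fun h => hw (by rw [← h, Equiv.symm_apply_apply])
    rw [Pi.mulSingle_eq_of_ne h2, Pi.mulSingle_eq_of_ne hw]

theorem inU0_embFin_mul57 {n : ℕ} (e : InfinitePlace K ≃ Fin n) (𝔫 : Ideal (𝓞 K))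
    (t : Fin n → GL (Fin 2) ℂ) (x : G K) (hx : InU057 𝔫 x) :
    InU057 𝔫 (embFin57 hK e t * x) := by
  rw [inU0_iff_loc57] at hx ⊢
  intro v
  rw [map_mul, finGL_embFin57, one_mul]
  exact hx v

theorem inU0_one57 (𝔫 : Ideal (𝓞 K)) : InU057 𝔫 (1 : G K) := by
  rw [inU0_iff_loc57]
  intro v
  rw [map_one]
  exact locU_one57 𝔫 v

theorem isStdCompact_of57 (𝔫 : Ideal (𝓞 K)) (u : G K) (hu : InLevelGroup 𝔫 u) :
    IsStdCompact K u := by
  have hU : InU057 𝔫 u := hu.2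
  rw [inU0_iff_loc57] at hU
  refine ⟨fun v => ⟨fun i j => ?_, fun i j => ?_⟩, fun w => ?_⟩
  · have := (isIntGL_of_locU57 𝔫 v _ (hU v) i j).1
    rwa [finGL_val57] at this
  · have := (isIntGL_of_locU57 𝔫 v _ (hU v) i j).2
    rwa [finGL_inv_val57] at this
  · have h1 : infComp w u = 1 := by
      ext i j
      change InfinitePlace.Completion.extensionEmbedding w _ = _
      rw [hu.1 w i j, Matrix.one_apply, Matrix.one_apply]
      split_ifs <;> simp
    rw [h1]
    simp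

/-- `φ(y x) = φ(y ι(π x))` on `U₀`. -/
theorem sph_eq_of_inU057 {n : ℕ} (e : InfinitePlace K ≃ Fin n) (𝔫 : Ideal (𝓞 K))
    (φ : G K → ℂ) (hφ : IsSph0Level K 𝔫 φ) (y x : G K) (hx : InU057 𝔫 x) :
    φ (y * x) = φ (y * embFin57 hK e (piInf57 e x)) := by
  have hu := inLevelGroup_of57 hK 𝔫 x hx
  rw [embFin_piInf57]
  have := hφ.level_inv _ hu (y * infEmb57 hK (fun w => AS.infGL K w x))
  rw [mul_assoc, mul_inv_cancel_left] at this
  exact this

variable [MeasurableSpace (G K)] [BorelSpace (G K)]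

include hK in
/-- `U₀ ∩ π⁻¹ C` has finite measure. -/
theorem measure_lt_top57 {n : ℕ} (e : InfinitePlace K ≃ Fin n) (𝔫 : Ideal (𝓞 K))
    (μ : Measure (G K)) [μ.IsHaarMeasure] (C : Set (Fin n → GL (Fin 2) ℂ)) (hC : IsCompact C) :
    μ ({x : G K | InU057 𝔫 x} ∩ piInf57 e ⁻¹' C) < ∞ := by
  have hK0 := isCompact_stdCompact793 K
  have hcont : Continuous (fun p : (Fin n → GL (Fin 2) ℂ) × G K => embFin57 hK e p.1 * p.2) :=
    ((continuous_embFin57 hK e).comp continuous_fst).mul continuous_snd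
  have himg : IsCompact ((fun p : (Fin n → GL (Fin 2) ℂ) × G K => embFin57 hK e p.1 * p.2) ''
      (C ×ˢ {k : G K | IsStdCompact K k})) := (hC.prod hK0).image hcont
  refine lt_of_le_of_lt (measure_mono ?_) himg.measure_lt_top
  rintro x ⟨hx, hxC⟩
  refine ⟨(piInf57 e x, (embFin57 hK e (piInf57 e x))⁻¹ * x), ⟨hxC, ?_⟩, ?_⟩
  · have hu := inLevelGroup_of57 hK 𝔫 x hx
    rw [← embFin_piInf57 hK e] at hu
    exact isStdCompact_of57 𝔫 _ hu
  · simp

include hK in
/-- The integral of `φ(y ·) f¹` over `GL₂(𝔸_K)`. -/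
theorem integral_pureOne57 {n : ℕ} (e : InfinitePlace K ≃ Fin n) (𝔫 : Ideal (𝓞 K))
    (h𝔫 : 𝔫 ≠ ⊥) [MeasurableSpace (GL (Fin 2) ℂ)] [BorelSpace (GL (Fin 2) ℂ)]
    (μ : Measure (G K)) (μc : Measure (GL (Fin 2) ℂ)) [μc.IsHaarMeasure] (c : ℝ)
    (hc : ∀ f : (Fin n → GL (Fin 2) ℂ) → ℂ, Continuous f → HasCompactSupport f →
      IntegrableOn (fun x => f (piInf57 e x)) {x : G K | InU057 𝔫 x} μ ∧
      ∫ x in {x : G K | InU057 𝔫 x}, f (piInf57 e x) ∂μ
        = c • ∫ t, f t ∂(Measure.pi fun _ : Fin n => μc))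
    (F : InfinitePlace K → GL (Fin 2) ℂ → ℂ) (hF : ∀ w, AS.IsCplxTest (F w))
    (C : InfinitePlace K → ℂ) (hC : ∀ w, AS.ActsBy μc (F w) (C w))
    (φ : G K → ℂ) (hφ : IsSph0Level K 𝔫 φ) (y : G K) :
    Integrable (fun x => φ (y * x) * pureOne57 𝔫 F x) μ ∧
      ∫ x, φ (y * x) * pureOne57 𝔫 F x ∂μ = (c : ℂ) * (∏ w, C w) * φ y := by
  classical
  haveI := secondCountable_GL2C57
  haveI := locallyCompact_GL2C57
  have hUm : MeasurableSet {x : G K | InU057 𝔫 x} := (isOpen_inU057 𝔫 h𝔫).measurableSet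
  obtain ⟨Φ, hΦ⟩ : ∃ Φ : (Fin n → GL (Fin 2) ℂ) → ℂ, Φ = fun t => φ (y * embFin57 hK e t) :=
    ⟨_, rfl⟩
  have hΦc : Continuous Φ := by
    rw [hΦ]
    exact hφ.cont.comp (continuous_const.mul (continuous_embFin57 hK e))
  obtain ⟨Q, hQ⟩ : ∃ Q : (Fin n → GL (Fin 2) ℂ) → ℂ,
      Q = fun t => Φ t * ∏ i, F (e.symm i) (t i) := ⟨_, rfl⟩
  have hQc : Continuous Q := by
    rw [hQ]
    exact hΦc.mul (continuous_finsetProd _ fun i _ => (hF _).cont.comp (continuous_apply i))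
  have hQs : HasCompactSupport Q := by
    rw [hQ]
    exact hasCompactSupport_mul_prod57 n Φ (fun i => F (e.symm i)) (fun i => (hF _).supp)
  obtain ⟨hint, hval⟩ := hc Q hQc hQs
  have hfun : (fun x => φ (y * x) * pureOne57 𝔫 F x)
      = Set.indicator {x : G K | InU057 𝔫 x} (fun x => Q (piInf57 e x)) := by
    funext x
    by_cases hx : InU057 𝔫 x
    · rw [Set.indicator_of_mem (show x ∈ {x : G K | InU057 𝔫 x} from hx)]
      unfold pureOne57
      rw [if_pos hx, hQ, hΦ]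
      simp only
      rw [← sph_eq_of_inU057 hK e 𝔫 φ hφ y x hx]
      congr 1
      exact (Equiv.prod_comp e.symm (fun w => F w (AS.infGL K w x))).symm
    · rw [Set.indicator_of_notMem (show x ∉ {x : G K | InU057 𝔫 x} from hx)]
      unfold pureOne57
      rw [if_neg hx, mul_zero]
  rw [hfun]
  refine ⟨(integrable_indicator_iff hUm).2 hint, ?_⟩
  rw [integral_indicator hUm, hval]
  have hpi := integral_pi_eigen57 μc n Φ hΦc (fun i => F (e.symm i)) (fun i => (hF _).cont)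
    (fun i => (hF _).supp) (fun i => C (e.symm i)) ?_
  · have hQint : ∫ t, Q t ∂(Measure.pi fun _ : Fin n => μc)
        = ∫ t, Φ t * ∏ i, F (e.symm i) (t i) ∂(Measure.pi fun _ : Fin n => μc) := by rw [hQ]
    rw [hQint, hpi, Complex.real_smul, Equiv.prod_comp e.symm C]
    have h1 : Φ 1 = φ y := by rw [hΦ]; simp
    rw [h1]
    ring
  · intro i t
    have hΨ := isLocSph0_of57 hK 𝔫 φ hφ (y * embFin57 hK e t) (e.symm i)
    have hact := hC (e.symm i) _ hΨ 1
    simp only [one_mul, map_one, mul_one] at hact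
    have hupd : ∀ s : GL (Fin 2) ℂ, Function.update t i (t i * s) = t * Pi.mulSingle i s := by
      intro s
      funext j
      by_cases hj : j = i
      · subst hj
        simp
      · simp [Function.update_of_ne hj, Pi.mulSingle_eq_of_ne hj]
    have hΦs : ∀ s : GL (Fin 2) ℂ, Φ (Function.update t i (t i * s))
        = φ (y * embFin57 hK e t * infEmbAt57 hK (e.symm i) s) := by
      intro s
      rw [hΦ]
      simp only
      rw [hupd, map_mul, embFin_mulSingle57, mul_assoc]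
    simp_rw [hΦs]
    rw [hact, hΦ]

end Inf

/-- **AS.5 `ROpC`, unconditional.** -/
theorem rOpC57 (K : Type) [Field K] [NumberField K] : AS.ROpC K := by
  classical
  letI : MeasurableSpace (G K) := borel (G K)
  haveI : BorelSpace (G K) := ⟨rfl⟩
  letI : MeasurableSpace (GL (Fin 2) ℂ) := borel (GL (Fin 2) ℂ)
  haveI : BorelSpace (GL (Fin 2) ℂ) := ⟨rfl⟩
  haveI := secondCountable_GL2C57
  haveI := locallyCompact_GL2C57
  intro hK μ hμ μc hμc 𝔫 h𝔫 v₀ hv₀
  haveI := hμ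
  haveI := hμc
  obtain ⟨n, ⟨e⟩⟩ : ∃ n, Nonempty (InfinitePlace K ≃ Fin n) := ⟨_, ⟨Fintype.equivFin _⟩⟩
  obtain ⟨c, hc0, hc⟩ := pushforward_haar57 μ (Measure.pi fun _ : Fin n => μc)
    {x : G K | InU057 𝔫 x} (isOpen_inU057 𝔫 h𝔫) (piInf57 e) (continuous_piInf57 e)
    (embFin57 hK e) (piInf_embFin57 hK e) (fun t x hx => inU0_embFin_mul57 hK e 𝔫 t x hx)
    (inU0_one57 𝔫) (fun C hC => measure_lt_top57 hK e 𝔫 μ C hC)
  refine ⟨(c : ℂ), by exact_mod_cast hc0.ne', ?_⟩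
  intro A C f₀ F hf₀ hRex hA hF hC φ hφ a b z₁ z₂ he hab hb hb0 g
  obtain ⟨R, hR⟩ := hRex
  have hB := fun y => integral_pureOne57 hK e 𝔫 h𝔫 μ μc c hc F hF C hC φ hφ y
  unfold Rop
  have hsum : ∀ x, φ (g * x) * AS.pureFn K 𝔫 v₀ f₀ F x
      = ∑ h ∈ R, f₀ h * (φ (g * x) * pureOne57 𝔫 F ((finEmb57 v₀ h)⁻¹ * x)) := by
    intro x
    rw [pureFn_eq_sum57 𝔫 v₀ hv₀ f₀ F hf₀ R hR x, Finset.mul_sum]
    exact Finset.sum_congr rfl fun h _ => by ring
  simp_rw [hsum]
  have hterm_int : ∀ h : GL (Fin 2) (v₀.adicCompletion K),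
      Integrable (fun x => φ (g * x) * pureOne57 𝔫 F ((finEmb57 v₀ h)⁻¹ * x)) μ := by
    intro h
    have := ((hB (g * finEmb57 v₀ h)).1).comp_mul_left (finEmb57 v₀ h)⁻¹
    refine this.congr (Filter.Eventually.of_forall fun x => ?_)
    simp only [mul_assoc, mul_inv_cancel_left]
  have hterm : ∀ h : GL (Fin 2) (v₀.adicCompletion K),
      ∫ x, φ (g * x) * pureOne57 𝔫 F ((finEmb57 v₀ h)⁻¹ * x) ∂μ
        = (c : ℂ) * (∏ w, C w) * φ (g * finEmb57 v₀ h) := by
    intro h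
    rw [← (hB (g * finEmb57 v₀ h)).2,
      ← integral_mul_left_eq_self
        (fun x => φ (g * finEmb57 v₀ h * x) * pureOne57 𝔫 F x) (finEmb57 v₀ h)⁻¹]
    refine integral_congr_ae (Filter.Eventually.of_forall fun x => ?_)
    simp only [mul_assoc, mul_inv_cancel_left]
  rw [integral_finsetSum _ (fun h _ => (hterm_int h).const_mul _)]
  simp_rw [integral_const_mul, hterm]
  have hS := hA (fun y => φ (g * finEmb57 v₀ y)) a b z₁ z₂
    (isLocEigen_of57 𝔫 v₀ hv₀ φ hφ a b he g) hab hb hb0 R hR 1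
  simp only [one_mul, map_one, mul_one] at hS
  calc ∑ h ∈ R, f₀ h * ((c : ℂ) * (∏ w, C w) * φ (g * finEmb57 v₀ h))
      = (c : ℂ) * (∏ w, C w) * ∑ h ∈ R, f₀ h * φ (g * finEmb57 v₀ h) := by
        rw [Finset.mul_sum]
        exact Finset.sum_congr rfl fun h _ => by ring
    _ = (c : ℂ) * AS.laurent A z₁ z₂ * (∏ w, C w) * φ g := by
        rw [hS]
        ring

end Fermat.Agent.LT.T3.H57

end
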