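import Mathlib

/-!
# Row LT, tower T3 (volunteer helper57): abstract Poisson summation

OFF-MAIN.  Mathlib only, no definitions.

`poisson_abstract57`: let `G` be an abelian topological group with a Borel measure `μ` which is
translation invariant and positive on open sets, `Γ ≤ G` a countable subgroup with a fundamental
domain `D` of measure `1` and compact quotient `G ⧸ Γ`, and `χ : ι → G → ℂ` a countable family of
continuous unitary characters of `G`, trivial on `Γ`, pairwise distinct, closed under products and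
complex conjugation, containing `1`, and SEPARATING the points of `G ⧸ Γ`
(`(∀ i, χ i x = 1) → x ∈ Γ`).  Then for every continuous integrable `φ : G → ℂ` such that the
periodisation `x ↦ ∑' γ : Γ, φ (x + γ)` is continuous and the Fourier coefficients
`∫ φ · conj (χ i)` are absolutely summable,

  `∑' γ : Γ, φ γ = ∑' i, ∫ x, φ x * conj (χ i x) ∂μ`.

No duality theory: the two sides are the values at `0` of two continuous functions on `G ⧸ Γ` with
the same Fourier coefficients; they agree by Stone--Weierstrass.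
-/

set_option autoImplicit false
set_option linter.unusedSectionVars false

namespace Fermat.Agent.LT.T3.H57

open MeasureTheory Filter Set Topology ComplexConjugate
open scoped Pointwise

section

variable {G : Type*} [AddCommGroup G] [TopologicalSpace G] [IsTopologicalAddGroup G]
  [MeasurableSpace G] [BorelSpace G]
  (Γ : AddSubgroup G) [Countable Γ]
  (μ : Measure G) [μ.IsAddLeftInvariant]
  (D : Set G)

/-- The integral over a fundamental domain of a periodic function is translation invariant. -/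
theorem setIntegral_add_right_of_periodic57 (hD : IsAddFundamentalDomain Γ D μ) (f : G → ℂ)
    (hf : ∀ γ ∈ Γ, ∀ x, f (γ + x) = f x) (a : G) :
    ∫ x in D, f (x + a) ∂μ = ∫ x in D, f x ∂μ := by
  have hD' : IsAddFundamentalDomain Γ (a +ᵥ D) μ := hD.vadd_of_comm a
  have h1 : ∫ x in a +ᵥ D, f x ∂μ = ∫ x in D, f x ∂μ :=
    hD'.setIntegral_eq hD fun γ x => hf γ γ.2 x
  have h2 : ∫ x in a +ᵥ D, f x ∂μ = ∫ x in D, f (a + x) ∂μ :=
    (measurePreserving_add_left μ a).setIntegral_image_emb (measurableEmbedding_addLeft a) f D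
  rw [← h1, h2]
  simp only [add_comm]

/-- The integral over a fundamental domain of a periodic function which is multiplied by a
constant `c ≠ 1` under some translation vanishes (orthogonality of characters). -/
theorem setIntegral_eq_zero_of_twist57 (hD : IsAddFundamentalDomain Γ D μ) (f : G → ℂ)
    (hf : ∀ γ ∈ Γ, ∀ x, f (γ + x) = f x) (a : G) (c : ℂ) (hc : c ≠ 1)
    (hfa : ∀ x, f (x + a) = c * f x) : ∫ x in D, f x ∂μ = 0 := by
  have h1 := setIntegral_add_right_of_periodic57 Γ μ D hD f hf a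
  simp only [hfa] at h1
  rw [integral_const_mul] at h1
  have h2 : (c - 1) * ∫ x in D, f x ∂μ = 0 := by rw [sub_mul, one_mul, h1, sub_self]
  rcases mul_eq_zero.mp h2 with h | h
  · exact absurd (sub_eq_zero.mp h) hc
  · exact h

/-- **Unfolding**: the integral over a fundamental domain of the periodisation of `φ` against a
bounded continuous periodic function `g` is the integral of `φ * g` over `G`. -/
theorem setIntegral_periodisation_mul57 (hD : IsAddFundamentalDomain Γ D μ)
    (φ : G → ℂ) (hφc : Continuous φ) (hφi : Integrable φ μ)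
    (g : G → ℂ) (hgc : Continuous g) (hgb : ∀ x, ‖g x‖ ≤ 1)
    (hg : ∀ γ ∈ Γ, ∀ x, g (γ + x) = g x) :
    ∫ x in D, (∑' γ : Γ, φ (x + γ)) * g x ∂μ = ∫ x, φ x * g x ∂μ := by
  have hint : Integrable (fun x => φ x * g x) μ :=
    hφi.mul_bdd (c := 1) hgc.aestronglyMeasurable (Eventually.of_forall hgb)
  have h1 := hD.integral_eq_tsum'' (fun x => φ x * g x) hint
  have h2 : ∀ γ : Γ, ∀ x : G, φ (γ +ᵥ x) * g (γ +ᵥ x) = φ (x + γ) * g x := by
    intro γ x
    have : γ +ᵥ x = (γ : G) + x := rfl
    rw [this, hg γ γ.2 x, add_comm]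
  simp only [h2] at h1
  rw [h1]
  have hmeas : ∀ γ : Γ, AEStronglyMeasurable (fun x => φ (x + γ) * g x) (μ.restrict D) :=
    fun γ => ((hφc.comp (continuous_id.add continuous_const)).mul hgc).aestronglyMeasurable
  have hfin : ∑' γ : Γ, ∫⁻ x in D, ‖φ (x + γ) * g x‖ₑ ∂μ ≠ ⊤ := by
    have h3 := hD.lintegral_eq_tsum'' (fun x => ‖φ x * g x‖ₑ)
    have h4 : ∀ γ : Γ, ∀ x : G, ‖φ (γ +ᵥ x) * g (γ +ᵥ x)‖ₑ = ‖φ (x + γ) * g x‖ₑ := by
      intro γ x; rw [h2]
    simp only [h4] at h3
    rw [← h3]
    exact hint.2.ne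
  rw [← integral_tsum hmeas hfin]
  congr 1
  ext x
  rw [tsum_mul_right]

end

section Main

variable {G : Type*} [AddCommGroup G] [TopologicalSpace G] [IsTopologicalAddGroup G]
  [MeasurableSpace G] [BorelSpace G]
  (Γ : AddSubgroup G)

/-- Descent of a continuous `Γ`-periodic function to the quotient `G ⧸ Γ`. -/
noncomputable def desc57 (f : G → ℂ) (hfc : Continuous f)
    (hf : ∀ γ ∈ Γ, ∀ x, f (γ + x) = f x) : C(G ⧸ Γ, ℂ) :=
  ⟨Quotient.lift f (fun a b hab => by
      have h1 : -a + b ∈ Γ := QuotientAddGroup.leftRel_apply.mp hab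
      have h2 := hf _ h1 a
      rw [show -a + b + a = b by abel] at h2
      exact h2.symm),
    hfc.quotient_lift _⟩

@[simp] theorem desc57_mk (f : G → ℂ) (hfc : Continuous f)
    (hf : ∀ γ ∈ Γ, ∀ x, f (γ + x) = f x) (x : G) :
    desc57 Γ f hfc hf (x : G ⧸ Γ) = f x := rfl

variable [Countable Γ] [CompactSpace (G ⧸ Γ)]
  (μ : Measure G) [μ.IsAddLeftInvariant] [μ.IsOpenPosMeasure]
  (D : Set G)

/-- Integration over the fundamental domain as a linear functional on `C(G ⧸ Γ, ℂ)`. -/
noncomputable def intD57 (hvol : μ D = 1) : C(G ⧸ Γ, ℂ) →ₗ[ℂ] ℂ where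
  toFun f := ∫ x in D, f (x : G ⧸ Γ) ∂μ
  map_add' f g := by
    have : IsFiniteMeasure (μ.restrict D) :=
      ⟨by rw [Measure.restrict_apply_univ, hvol]; exact ENNReal.one_lt_top⟩
    have hi : ∀ f : C(G ⧸ Γ, ℂ), Integrable (fun x : G => f (x : G ⧸ Γ)) (μ.restrict D) :=
      fun f => Integrable.of_bound
        (f.continuous.comp continuous_quot_mk).aestronglyMeasurable ‖f‖
        (Eventually.of_forall fun x => f.norm_coe_le_norm _)
    simp only [ContinuousMap.add_apply]
    exact integral_add (hi f) (hi g)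
  map_smul' c f := by
    simp only [ContinuousMap.smul_apply, smul_eq_mul, RingHom.id_apply]
    exact integral_const_mul c _

theorem intD57_apply (hvol : μ D = 1) (f : C(G ⧸ Γ, ℂ)) :
    intD57 Γ μ D hvol f = ∫ x in D, f (x : G ⧸ Γ) ∂μ := rfl

theorem norm_intD57_le (hvol : μ D = 1) (f : C(G ⧸ Γ, ℂ)) :
    ‖intD57 Γ μ D hvol f‖ ≤ ‖f‖ := by
  rw [intD57_apply]
  have h := norm_setIntegral_le_of_norm_le_const (μ := μ) (s := D) (C := ‖f‖)
    (f := fun x : G => f (x : G ⧸ Γ)) (by rw [hvol]; exact ENNReal.one_lt_top)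
    (fun x _ => f.norm_coe_le_norm _)
  have h1 : μ.real D = 1 := by simp [Measure.real, hvol]
  rwa [h1, mul_one] at h

/-- A continuous function on `G ⧸ Γ` with `∫_D |f|² = 0` vanishes identically. -/
theorem eq_zero_of_intD57_mul_star (hD : IsAddFundamentalDomain Γ D μ) (hvol : μ D = 1)
    (f : C(G ⧸ Γ, ℂ)) (h0 : intD57 Γ μ D hvol (f * star f) = 0) (x : G) :
    f (x : G ⧸ Γ) = 0 := by
  have : IsFiniteMeasure (μ.restrict D) :=
    ⟨by rw [Measure.restrict_apply_univ, hvol]; exact ENNReal.one_lt_top⟩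
  let F : G → ℂ := fun x => f (x : G ⧸ Γ)
  have hFc : Continuous F := f.continuous.comp continuous_quot_mk
  have h1 : ∫ x in D, ((Complex.normSq (F x) : ℝ) : ℂ) ∂μ = 0 := by
    rw [intD57_apply] at h0
    rw [← h0]
    congr 1
    ext x
    simp only [ContinuousMap.mul_apply, ContinuousMap.star_apply, F]
    rw [Complex.star_def, Complex.mul_conj]
  rw [integral_complex_ofReal] at h1
  have h2 : ∫ x in D, Complex.normSq (F x) ∂μ = 0 := by exact_mod_cast h1
  have hnn : 0 ≤ fun x => Complex.normSq (F x) := fun x => Complex.normSq_nonneg _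
  have hcn : Continuous fun x => Complex.normSq (F x) := Complex.continuous_normSq.comp hFc
  have hint : Integrable (fun x => Complex.normSq (F x)) (μ.restrict D) := by
    refine Integrable.of_bound hcn.aestronglyMeasurable (‖f‖ ^ 2)
      (Eventually.of_forall fun x => ?_)
    rw [Real.norm_of_nonneg (Complex.normSq_nonneg _), Complex.normSq_eq_norm_sq]
    exact pow_le_pow_left₀ (norm_nonneg _) (f.norm_coe_le_norm _) 2
  have h3 := (integral_eq_zero_iff_of_nonneg hnn hint).mp h2
  let U : Set G := {x | F x ≠ 0}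
  have hU : IsOpen U := isOpen_ne_fun hFc continuous_const
  have h4 : μ (U ∩ D) = 0 := by
    have h5 : (μ.restrict D) {x | ¬ (Complex.normSq (F x) = (0 : G → ℝ) x)} = 0 := ae_iff.mp h3
    have h6 : {x | ¬ (Complex.normSq (F x) = (0 : G → ℝ) x)} = U := by
      ext x
      simp [U]
    rw [h6, Measure.restrict_apply hU.measurableSet] at h5
    exact h5
  have hinv : ∀ γ : Γ, γ +ᵥ U = U := by
    intro γ
    ext x
    rw [Set.mem_vadd_set_iff_neg_vadd_mem]
    have h7 : F (-γ +ᵥ x) = F x := by
      show f ((-γ +ᵥ x : G) : G ⧸ Γ) = f (x : G ⧸ Γ)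
      congr 1
      have : (-γ +ᵥ x : G) = x + ((-γ : Γ) : G) := by
        show ((-γ : Γ) : G) + x = x + ((-γ : Γ) : G)
        exact add_comm _ _
      rw [this]
      exact QuotientAddGroup.mk_add_of_mem x (-γ).2
    show F (-γ +ᵥ x) ≠ 0 ↔ F x ≠ 0
    rw [h7]
  have h8 : μ U = 0 := hD.measure_zero_of_invariant U hinv h4
  have h9 : U = ∅ := (hU.measure_eq_zero_iff μ).mp h8
  by_contra hne
  have : x ∈ U := hne
  rw [h9] at this
  exact this

/-- **Abstract Poisson summation formula.** -/
theorem poisson_abstract57 (hD : IsAddFundamentalDomain Γ D μ) (hvol : μ D = 1)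
    {ι : Type*} [Countable ι] (χ : ι → G → ℂ)
    (hχc : ∀ i, Continuous (χ i))
    (hχadd : ∀ i x y, χ i (x + y) = χ i x * χ i y)
    (hχn : ∀ i x, ‖χ i x‖ = 1)
    (hχΓ : ∀ i, ∀ γ ∈ Γ, χ i γ = 1)
    (hχinj : Function.Injective χ)
    (hχone : ∃ i, ∀ x, χ i x = 1)
    (hχmul : ∀ i j, ∃ k, ∀ x, χ k x = χ i x * χ j x)
    (hχinv : ∀ i, ∃ k, ∀ x, χ k x = conj (χ i x))
    (hsep : ∀ x : G, (∀ i, χ i x = 1) → x ∈ Γ)
    (φ : G → ℂ) (hφc : Continuous φ) (hφi : Integrable φ μ)
    (hΦc : Continuous fun x => ∑' γ : Γ, φ (x + γ))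
    (hhat : Summable fun i => ‖∫ x, φ x * conj (χ i x) ∂μ‖) :
    ∑' γ : Γ, φ γ = ∑' i, ∫ x, φ x * conj (χ i x) ∂μ := by
  classical
  have hfm : IsFiniteMeasure (μ.restrict D) :=
    ⟨by rw [Measure.restrict_apply_univ, hvol]; exact ENNReal.one_lt_top⟩
  have hreal : μ.real D = 1 := by simp [Measure.real, hvol]
  -- basic facts on the characters
  have hχper : ∀ i, ∀ γ ∈ Γ, ∀ x, χ i (γ + x) = χ i x := fun i γ hγ x => by
    rw [hχadd, hχΓ i γ hγ, one_mul]
  have hχ0 : ∀ i, χ i 0 = 1 := fun i => hχΓ i 0 Γ.zero_mem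
  have hχcc : ∀ i x, χ i x * conj (χ i x) = 1 := by
    intro i x
    rw [Complex.mul_conj, Complex.normSq_eq_norm_sq, hχn]
    simp
  have hχconjn : ∀ i x, ‖conj (χ i x)‖ = 1 := fun i x => by
    rw [RCLike.norm_conj, hχn]
  have hχconjc : ∀ i, Continuous fun x => conj (χ i x) := fun i =>
    Complex.continuous_conj.comp (hχc i)
  -- the functions
  let X : ι → C(G ⧸ Γ, ℂ) := fun i => desc57 Γ (χ i) (hχc i) (hχper i)
  let c : ι → ℂ := fun i => ∫ x, φ x * conj (χ i x) ∂μ
  let Φ : G → ℂ := fun x => ∑' γ : Γ, φ (x + γ)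
  let Ψ : G → ℂ := fun x => ∑' i, c i * χ i x
  have hΨc : Continuous Ψ :=
    continuous_tsum (fun i => continuous_const.mul (hχc i)) hhat
      (fun i x => by rw [norm_mul, hχn, mul_one])
  have hΦper : ∀ γ ∈ Γ, ∀ x, Φ (γ + x) = Φ x := by
    intro γ hγ x
    show ∑' γ' : Γ, φ (γ + x + γ') = ∑' γ' : Γ, φ (x + γ')
    have h1 := (Equiv.addRight (⟨γ, hγ⟩ : Γ)).tsum_eq (fun γ' : Γ => φ (x + γ'))
    rw [← h1]
    congr 1
    ext γ'
    congr 1
    simp only [Equiv.coe_addRight, AddSubgroup.coe_add]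
    abel
  have hΨper : ∀ γ ∈ Γ, ∀ x, Ψ (γ + x) = Ψ x := by
    intro γ hγ x
    show ∑' i, c i * χ i (γ + x) = ∑' i, c i * χ i x
    simp only [hχper _ γ hγ]
  let PhiT : C(G ⧸ Γ, ℂ) := desc57 Γ Φ hΦc hΦper
  let PsiT : C(G ⧸ Γ, ℂ) := desc57 Γ Ψ hΨc hΨper
  let H : C(G ⧸ Γ, ℂ) := PhiT - PsiT
  -- orthogonality relations
  have horth : ∀ i j, ∫ x in D, χ i x * conj (χ j x) ∂μ = if i = j then 1 else 0 := by
    intro i j
    split_ifs with hij
    · subst hij
      simp only [hχcc]
      rw [setIntegral_const, hreal, one_smul]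
    · have hex : ∃ a, χ i a ≠ χ j a := by
        by_contra hcon
        push Not at hcon
        exact hij (hχinj (funext hcon))
      obtain ⟨a, ha⟩ := hex
      refine setIntegral_eq_zero_of_twist57 Γ μ D hD _ ?_ a (χ i a * conj (χ j a)) ?_ ?_
      · intro γ hγ x
        rw [hχper i γ hγ, hχper j γ hγ]
      · intro h1
        apply ha
        have h2 : χ i a * conj (χ j a) * χ j a = χ j a := by rw [h1, one_mul]
        rw [mul_assoc, mul_comm (conj (χ j a)), hχcc, mul_one] at h2
        exact h2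
      · intro x
        rw [hχadd, hχadd, map_mul]
        ring
  -- Fourier coefficients of the periodisation
  have hΦhat : ∀ j, intD57 Γ μ D hvol (PhiT * star (X j)) = c j := by
    intro j
    rw [intD57_apply]
    exact setIntegral_periodisation_mul57 Γ μ D hD φ hφc hφi (fun x => conj (χ j x))
      (hχconjc j) (fun x => (hχconjn j x).le)
      (fun γ hγ x => by rw [hχper j γ hγ])
  -- Fourier coefficients of the Fourier series
  have hΨhat : ∀ j, intD57 Γ μ D hvol (PsiT * star (X j)) = c j := by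
    intro j
    rw [intD57_apply]
    show ∫ x in D, (∑' i, c i * χ i x) * conj (χ j x) ∂μ = c j
    have h1 : ∀ x, (∑' i, c i * χ i x) * conj (χ j x) = ∑' i, c i * χ i x * conj (χ j x) :=
      fun x => by rw [← tsum_mul_right]
    simp only [h1]
    have hnorm : ∀ i x, ‖c i * χ i x * conj (χ j x)‖ = ‖c i‖ := fun i x => by
      rw [norm_mul, norm_mul, hχn, hχconjn, mul_one, mul_one]
    rw [← integral_tsum_of_summable_integral_norm]
    · have h2 : ∀ i, ∫ x in D, c i * χ i x * conj (χ j x) ∂μ = if i = j then c i else 0 := by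
        intro i
        simp only [mul_assoc]
        rw [integral_const_mul, horth]
        split_ifs <;> simp
      simp only [h2]
      rw [tsum_ite_eq]
    · intro i
      exact Integrable.of_bound
        ((continuous_const.mul (hχc i)).mul (hχconjc j)).aestronglyMeasurable ‖c i‖
        (Eventually.of_forall fun x => (hnorm i x).le)
    · simp only [hnorm]
      simp only [setIntegral_const, hreal, one_smul]
      exact hhat
  have hHorth : ∀ j, intD57 Γ μ D hvol (H * star (X j)) = 0 := by
    intro j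
    show intD57 Γ μ D hvol ((PhiT - PsiT) * star (X j)) = 0
    rw [sub_mul, map_sub, hΦhat, hΨhat, sub_self]
  -- every character is the conjugate of a character
  have hXstar : ∀ i, ∃ k, star (X i) = X k := by
    intro i
    obtain ⟨k, hk⟩ := hχinv i
    refine ⟨k, ?_⟩
    ext q
    induction q using QuotientAddGroup.induction_on with
    | H x =>
      show star (χ i x) = χ k x
      rw [hk]
      rfl
  have hHX : ∀ i, intD57 Γ μ D hvol (H * X i) = 0 := by
    intro i
    obtain ⟨k, hk⟩ := hXstar i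
    have : X i = star (X k) := by rw [← hk, star_star]
    rw [this]
    exact hHorth k
  -- the span of the characters
  let Ssub : Submodule ℂ C(G ⧸ Γ, ℂ) := Submodule.span ℂ (Set.range X)
  have hS1 : (1 : C(G ⧸ Γ, ℂ)) ∈ Ssub := by
    obtain ⟨i, hi⟩ := hχone
    have : X i = 1 := by
      ext q
      induction q using QuotientAddGroup.induction_on with
      | H x => exact hi x
    rw [← this]
    exact Submodule.subset_span ⟨i, rfl⟩
  have hSmul : ∀ a b, a ∈ Ssub → b ∈ Ssub → a * b ∈ Ssub := by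
    intro a b ha hb
    have h1 : a * b ∈ Ssub * Ssub := Submodule.mul_mem_mul ha hb
    have h2 : Ssub * Ssub ≤ Ssub := by
      show Submodule.span ℂ (Set.range X) * Submodule.span ℂ (Set.range X) ≤ _
      rw [Submodule.span_mul_span]
      refine Submodule.span_le.mpr ?_
      rintro _ ⟨_, ⟨i, rfl⟩, _, ⟨j, rfl⟩, rfl⟩
      obtain ⟨k, hk⟩ := hχmul i j
      have : X i * X j = X k := by
        ext q
        induction q using QuotientAddGroup.induction_on with
        | H x => exact (hk x).symm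
      show X i * X j ∈ Ssub
      rw [this]
      exact Submodule.subset_span ⟨k, rfl⟩
    exact h2 h1
  have hSstar : ∀ a, a ∈ Ssub → star a ∈ Ssub := by
    intro a ha
    induction ha using Submodule.span_induction with
    | mem x hx =>
      obtain ⟨i, rfl⟩ := hx
      obtain ⟨k, hk⟩ := hXstar i
      rw [hk]
      exact Submodule.subset_span ⟨k, rfl⟩
    | zero => rw [star_zero]; exact Submodule.zero_mem _
    | add x y _ _ hx hy => rw [star_add]; exact Submodule.add_mem _ hx hy
    | smul r x _ hx => rw [star_smul]; exact Submodule.smul_mem _ _ hx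
  let S : StarSubalgebra ℂ C(G ⧸ Γ, ℂ) :=
    { toSubalgebra := Ssub.toSubalgebra hS1 hSmul
      star_mem' := fun {a} ha => hSstar a ha }
  have hSmem : ∀ a, a ∈ S → a ∈ Ssub := fun a ha => ha
  have hSsep : S.SeparatesPoints := by
    intro q q' hqq'
    induction q using QuotientAddGroup.induction_on with
    | H x =>
    induction q' using QuotientAddGroup.induction_on with
    | H y =>
    have hxy : -x + y ∉ Γ := fun hmem => hqq' (QuotientAddGroup.eq.mpr hmem)
    have hex : ∃ i, χ i (-x + y) ≠ 1 := by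
      by_contra hcon
      push Not at hcon
      exact hxy (hsep _ hcon)
    obtain ⟨i, hi⟩ := hex
    refine ⟨X i, ⟨X i, Submodule.subset_span ⟨i, rfl⟩, rfl⟩, ?_⟩
    show χ i x ≠ χ i y
    intro heq
    apply hi
    have h1 : χ i y = χ i x * χ i (-x + y) := by
      rw [← hχadd]
      congr 1
      abel
    have hne : χ i x ≠ 0 := by
      intro h0
      have := hχn i x
      rw [h0, norm_zero] at this
      exact zero_ne_one this
    rw [← heq] at h1
    exact (mul_eq_left₀ hne).mp h1.symm
  have hdense : S.topologicalClosure = ⊤ :=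
    ContinuousMap.starSubalgebra_topologicalClosure_eq_top_of_separatesPoints S hSsep
  -- `H` is orthogonal to the span
  have hHS : ∀ p, p ∈ Ssub → intD57 Γ μ D hvol (H * p) = 0 := by
    intro p hp
    induction hp using Submodule.span_induction with
    | mem x hx =>
      obtain ⟨i, rfl⟩ := hx
      exact hHX i
    | zero => rw [mul_zero, map_zero]
    | add x y _ _ hx hy => rw [mul_add, map_add, hx, hy, add_zero]
    | smul r x _ hx => rw [mul_smul_comm, map_smul, hx, smul_zero]
  -- hence to itself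
  have hHH : intD57 Γ μ D hvol (H * star H) = 0 := by
    have hcl : star H ∈ closure (S : Set C(G ⧸ Γ, ℂ)) := by
      rw [← StarSubalgebra.topologicalClosure_coe, hdense]
      trivial
    rw [← norm_eq_zero]
    refine le_antisymm (le_of_forall_pos_le_add fun ε hε => ?_) (norm_nonneg _)
    rw [zero_add]
    obtain ⟨p, hpS, hp⟩ := Metric.mem_closure_iff.mp hcl (ε / (‖H‖ + 1)) (by positivity)
    have h1 : H * star H = H * (star H - p) + H * p := by ring
    rw [h1, map_add, hHS p (hSmem p hpS), add_zero]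
    calc ‖intD57 Γ μ D hvol (H * (star H - p))‖ ≤ ‖H * (star H - p)‖ := norm_intD57_le Γ μ D hvol _
      _ ≤ ‖H‖ * ‖star H - p‖ := norm_mul_le _ _
      _ ≤ ‖H‖ * (ε / (‖H‖ + 1)) := by
          refine mul_le_mul_of_nonneg_left ?_ (norm_nonneg _)
          rw [← dist_eq_norm]
          exact hp.le
      _ ≤ ε := by
          have hpos : 0 < ‖H‖ + 1 := by positivity
          rw [← mul_div_assoc, div_le_iff₀ hpos]
          nlinarith [norm_nonneg H]
  have hfinal := eq_zero_of_intD57_mul_star Γ μ D hD hvol H hHH 0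
  have h0 : Φ 0 - Ψ 0 = 0 := hfinal
  have hΦ0 : Φ 0 = ∑' γ : Γ, φ γ := by
    show ∑' γ : Γ, φ (0 + γ) = _
    simp only [zero_add]
  have hΨ0 : Ψ 0 = ∑' i, ∫ x, φ x * conj (χ i x) ∂μ := by
    show ∑' i, c i * χ i 0 = _
    simp only [hχ0, mul_one]
    rfl
  rw [← hΦ0, ← hΨ0]
  exact sub_eq_zero.mp h0

end Main

end Fermat.Agent.LT.T3.H57
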